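/-
JT3, node G5: THE `p`-ADIC TATE MODULE OF AN ABELIAN GROUP (generic, Mathlib only).

For an abelian group `J` and a prime `p`:

* `tm_T J p : AddSubgroup (ℕ → J)` : sequences `x` with `p ^ n • x n = 0`, `p • x (n+1) = x n`,
  a `ℤ_[p]`-module by `(a • x) n = (a mod p ^ n) • x n`;
* `tm_map : AddMonoid.End J →+* Module.End ℤ_[p] (tm_T J p)` (componentwise), so group actions,
  Hecke operators and every polynomial relation between endomorphisms which holds on the
  `p`-power torsion of `J` pass to the Tate module (`tm_map_eq_zero`);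
* `tm_exists_eq_smul` : `x n = 0 → x ∈ p ^ n • T`;
* `tm_free r hcard` : if `J[p ^ n]` has `p ^ (r n)` elements for all `n`, then the Tate module is
  free of rank `r` (`tm_equiv : tm_T J p ≃ₗ[ℤ_[p]] (Fin r → ℤ_[p])`), and `tm_proj_surjective`.
-/
import Mathlib

set_option autoImplicit false
set_option linter.unusedSectionVars false

noncomputable section

namespace Fermat.Agent.JT3

section Basic

variable {J : Type*} [AddCommGroup J]

theorem tm_mod_nsmul {y : J} {k : ℕ} (h : k • y = 0) (m : ℕ) : (m % k) • y = m • y := by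
  conv_rhs => rw [← Nat.mod_add_div m k]
  rw [add_nsmul, mul_nsmul, h, smul_zero, add_zero]

theorem tm_val_nsmul {k : ℕ} [NeZero k] {y : J} (h : k • y = 0) (m : ℕ) :
    ((m : ZMod k).val) • y = m • y := by
  rw [ZMod.val_natCast]; exact tm_mod_nsmul h m

theorem tm_val_add {k : ℕ} [NeZero k] {y : J} (h : k • y = 0) (a b : ZMod k) :
    (a + b).val • y = a.val • y + b.val • y := by
  rw [ZMod.val_add, tm_mod_nsmul h, add_nsmul]

theorem tm_val_mul {k : ℕ} [NeZero k] {y : J} (h : k • y = 0) (a b : ZMod k) :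
    (a * b).val • y = a.val • b.val • y := by
  rw [ZMod.val_mul, tm_mod_nsmul h, mul_nsmul']

theorem tm_val_one {k : ℕ} [NeZero k] {y : J} (h : k • y = 0) : (1 : ZMod k).val • y = y := by
  rw [ZMod.val_one_eq_one_mod, tm_mod_nsmul h, one_nsmul]

theorem tm_val_cast {k l : ℕ} [NeZero k] [NeZero l] {y : J} (h : k • y = 0) (a : ZMod l) :
    (ZMod.cast a : ZMod k).val • y = a.val • y := by
  rw [← ZMod.natCast_val, tm_val_nsmul h]

end Basic

variable (J : Type*) [AddCommGroup J] (p : ℕ) [hp : Fact p.Prime]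

/-- The `p`-adic Tate module of `J`, as compatible sequences of `p`-power torsion elements. -/
def tm_T : AddSubgroup (ℕ → J) where
  carrier := {x | ∀ n, p ^ n • x n = 0 ∧ p • x (n + 1) = x n}
  zero_mem' := fun _ => ⟨smul_zero _, smul_zero _⟩
  add_mem' := fun {x y} hx hy n =>
    ⟨by rw [Pi.add_apply, smul_add, (hx n).1, (hy n).1, add_zero],
     by rw [Pi.add_apply, Pi.add_apply, smul_add, (hx n).2, (hy n).2]⟩
  neg_mem' := fun {x} hx n =>
    ⟨by rw [Pi.neg_apply, smul_neg, (hx n).1, neg_zero],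
     by rw [Pi.neg_apply, Pi.neg_apply, smul_neg, (hx n).2]⟩

variable {J p}

theorem tm_mem_iff {x : ℕ → J} :
    x ∈ tm_T J p ↔ ∀ n, p ^ n • x n = 0 ∧ p • x (n + 1) = x n := Iff.rfl

theorem tm_tor (x : tm_T J p) (n : ℕ) : p ^ n • x.1 n = 0 := (x.2 n).1

theorem tm_compat (x : tm_T J p) (n : ℕ) : p • x.1 (n + 1) = x.1 n := (x.2 n).2

theorem tm_pow_smul (x : tm_T J p) (n k : ℕ) : p ^ k • x.1 (n + k) = x.1 n := by
  induction k with
  | zero => rw [pow_zero, one_nsmul, add_zero]
  | succ k ih => rw [pow_succ', mul_nsmul, ← add_assoc, tm_compat, ih]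

theorem tm_ext {x y : tm_T J p} (h : ∀ n, x.1 n = y.1 n) : x = y :=
  Subtype.ext (funext h)

variable (J p)

/-- the scalar action of `ℤ_[p]` on sequences -/
def tm_smulFun (a : ℤ_[p]) (x : ℕ → J) : ℕ → J := fun n => (PadicInt.toZModPow n a).val • x n

variable {J p}

theorem tm_smul_mem (a : ℤ_[p]) {x : ℕ → J} (hx : x ∈ tm_T J p) :
    tm_smulFun J p a x ∈ tm_T J p := by
  intro n
  refine ⟨?_, ?_⟩
  · show p ^ n • ((PadicInt.toZModPow n a).val • x n) = 0
    rw [smul_comm, (hx n).1, smul_zero]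
  · show p • ((PadicInt.toZModPow (n + 1) a).val • x (n + 1)) = (PadicInt.toZModPow n a).val • x n
    rw [smul_comm, (hx n).2, ← PadicInt.cast_toZModPow n (n + 1) (Nat.le_succ n) a,
      tm_val_cast (hx n).1]

instance tm_module : Module ℤ_[p] (tm_T J p) where
  smul a x := ⟨tm_smulFun J p a x.1, tm_smul_mem a x.2⟩
  one_smul x := by
    refine tm_ext fun n => ?_
    show (PadicInt.toZModPow n (1 : ℤ_[p])).val • x.1 n = x.1 n
    rw [map_one]; exact tm_val_one (tm_tor x n)
  mul_smul a b x := by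
    refine tm_ext fun n => ?_
    show (PadicInt.toZModPow n (a * b)).val • x.1 n =
      (PadicInt.toZModPow n a).val • (PadicInt.toZModPow n b).val • x.1 n
    rw [map_mul]; exact tm_val_mul (tm_tor x n) _ _
  smul_zero a := by
    refine tm_ext fun n => ?_
    show (PadicInt.toZModPow n a).val • (0 : J) = 0
    exact smul_zero _
  smul_add a x y := by
    refine tm_ext fun n => ?_
    show (PadicInt.toZModPow n a).val • (x.1 n + y.1 n) =
      (PadicInt.toZModPow n a).val • x.1 n + (PadicInt.toZModPow n a).val • y.1 n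
    exact smul_add _ _ _
  add_smul a b x := by
    refine tm_ext fun n => ?_
    show (PadicInt.toZModPow n (a + b)).val • x.1 n =
      (PadicInt.toZModPow n a).val • x.1 n + (PadicInt.toZModPow n b).val • x.1 n
    rw [map_add]; exact tm_val_add (tm_tor x n) _ _
  zero_smul x := by
    refine tm_ext fun n => ?_
    show (PadicInt.toZModPow n (0 : ℤ_[p])).val • x.1 n = 0
    rw [map_zero, ZMod.val_zero, zero_nsmul]

theorem tm_smul_apply (a : ℤ_[p]) (x : tm_T J p) (n : ℕ) :
    (a • x).1 n = (PadicInt.toZModPow n a).val • x.1 n := rfl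

theorem tm_add_apply (x y : tm_T J p) (n : ℕ) : (x + y).1 n = x.1 n + y.1 n := rfl

theorem tm_sub_apply (x y : tm_T J p) (n : ℕ) : (x - y).1 n = x.1 n - y.1 n := rfl

theorem tm_zero_apply (n : ℕ) : (0 : tm_T J p).1 n = 0 := rfl

theorem tm_nsmul_apply (m : ℕ) (x : tm_T J p) (n : ℕ) : (m • x).1 n = m • x.1 n := rfl

theorem tm_natCast_smul_apply (m : ℕ) (x : tm_T J p) (n : ℕ) :
    ((m : ℤ_[p]) • x).1 n = m • x.1 n := by
  rw [Nat.cast_smul_eq_nsmul, tm_nsmul_apply]

variable (J p)

/-- the `n`-th component, as an additive map -/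
def tm_proj (n : ℕ) : tm_T J p →+ J where
  toFun x := x.1 n
  map_zero' := rfl
  map_add' _ _ := rfl

variable {J p}

theorem tm_proj_apply (n : ℕ) (x : tm_T J p) : tm_proj J p n x = x.1 n := rfl

/-- the kernel of the `n`-th projection is `p ^ n T` -/
theorem tm_exists_eq_smul (x : tm_T J p) (n : ℕ) (h : x.1 n = 0) :
    ∃ y : tm_T J p, x = ((p : ℤ_[p]) ^ n) • y := by
  have hy : (fun m => x.1 (m + n)) ∈ tm_T J p := by
    intro m
    refine ⟨?_, ?_⟩
    · show p ^ m • x.1 (m + n) = 0
      rw [add_comm, tm_pow_smul, h]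
    · show p • x.1 (m + 1 + n) = x.1 (m + n)
      rw [add_right_comm, tm_compat]
  refine ⟨⟨_, hy⟩, tm_ext fun m => ?_⟩
  rw [← Nat.cast_pow, tm_natCast_smul_apply]
  show x.1 m = p ^ n • x.1 (m + n)
  rw [tm_pow_smul]

theorem tm_smul_pow_apply (y : tm_T J p) (n : ℕ) : (((p : ℤ_[p]) ^ n) • y).1 n = 0 := by
  rw [← Nat.cast_pow, tm_natCast_smul_apply, tm_tor]

/-! ### functoriality -/

variable (J p)

/-- an endomorphism of `J` acts on the Tate module -/
def tm_mapFun (f : J →+ J) (x : tm_T J p) : tm_T J p :=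
  ⟨fun n => f (x.1 n), fun n =>
    ⟨by rw [← map_nsmul, tm_tor, map_zero], by rw [← map_nsmul, tm_compat]⟩⟩

/-- `End J → End_{ℤ_p} (T_p J)`, a ring homomorphism -/
def tm_map : AddMonoid.End J →+* Module.End ℤ_[p] (tm_T J p) where
  toFun f :=
    { toFun := tm_mapFun J p f
      map_add' := fun x y => tm_ext fun n => map_add f (x.1 n) (y.1 n)
      map_smul' := fun _ _ => tm_ext fun _ => map_nsmul f _ _ }
  map_one' := LinearMap.ext fun _ => tm_ext fun _ => rfl
  map_mul' _ _ := LinearMap.ext fun _ => tm_ext fun _ => rfl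
  map_zero' := LinearMap.ext fun _ => tm_ext fun _ => rfl
  map_add' _ _ := LinearMap.ext fun _ => tm_ext fun _ => rfl

variable {J p}

theorem tm_map_apply (f : AddMonoid.End J) (x : tm_T J p) (n : ℕ) :
    (tm_map J p f x).1 n = f (x.1 n) := rfl

/-- an endomorphism killing the `p`-power torsion of `J` kills the Tate module -/
theorem tm_map_eq_zero (f : AddMonoid.End J) (h : ∀ x : J, (∃ n : ℕ, p ^ n • x = 0) → f x = 0) :
    tm_map J p f = 0 :=
  LinearMap.ext fun x => tm_ext fun n => h _ ⟨n, tm_tor x n⟩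

/-- endomorphisms agreeing on the `p`-power torsion agree on the Tate module -/
theorem tm_map_congr (f g : AddMonoid.End J)
    (h : ∀ x : J, (∃ n : ℕ, p ^ n • x = 0) → f x = g x) : tm_map J p f = tm_map J p g :=
  LinearMap.ext fun x => tm_ext fun n => h _ ⟨n, tm_tor x n⟩

variable (J p)

/-- a group acting on `J` acts on the Tate module -/
def tm_rho (G : Type*) [Monoid G] [DistribMulAction G J] :
    G →* Module.End ℤ_[p] (tm_T J p) :=
  (tm_map J p).toMonoidHom.comp (DistribMulAction.toAddMonoidEnd G J)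

variable {J p}

theorem tm_rho_apply {G : Type*} [Monoid G] [DistribMulAction G J] (g : G) (x : tm_T J p)
    (n : ℕ) : (tm_rho J p G g x).1 n = g • x.1 n := rfl

end Fermat.Agent.JT3
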