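/-
JT3, node G5: two generic complements on the Tate module.

* `tm_adicContinuous` : if `Gal(ℚ̄/ℚ)` acts on `J`, every `J[p ^ n]` is finite and every `p`-power
  torsion point is fixed by `Gal(ℚ̄/L)` for a finite `L / ℚ`, then the action on `tm_T J p` is
  adically continuous (the prelude's `GaloisActionIsAdicContinuous`).
* `tm_hom_finite`, `tm_hom_free` : for a finitely generated abelian group `G` and a principal ideal
  domain `R`, `G →+ R` is a finite free `R`-module.
-/
import Mathlib
import Fermat.Prelude.Def_GaloisRep_Adic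
import Fermat.Agent.JT3.Tate.Module

set_option autoImplicit false
set_option linter.unusedSectionVars false
set_option linter.style.haveILetI false

noncomputable section

namespace Fermat.Agent.JT3

local notation "GQ" => (AlgebraicClosure ℚ ≃ₐ[ℚ] AlgebraicClosure ℚ)

/-- adic continuity of the Galois action on the Tate module -/
theorem tm_adicContinuous {J : Type} [AddCommGroup J] [DistribMulAction GQ J] {p : ℕ}
    [hp : Fact p.Prime] (hfin : ∀ n : ℕ, Finite {x : J // p ^ n • x = 0})
    (hsm : ∀ x : J, (∃ n : ℕ, p ^ n • x = 0) →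
      ∃ L : IntermediateField ℚ (AlgebraicClosure ℚ), FiniteDimensional ℚ L ∧
        ∀ σ : GQ, (∀ y ∈ L, σ y = y) → σ • x = x) :
    GaloisActionIsAdicContinuous ℤ_[p] (tm_rho J p GQ) := by
  intro n
  haveI := hfin n
  have h : ∀ x : {x : J // p ^ n • x = 0},
      ∃ L : IntermediateField ℚ (AlgebraicClosure ℚ), FiniteDimensional ℚ L ∧
        ∀ σ : GQ, (∀ y ∈ L, σ y = y) → σ • x.1 = x.1 := fun x => hsm x.1 ⟨n, x.2⟩
  choose L hL hfix using h
  refine ⟨⨆ x, L x, ?_, fun σ hσ v => ?_⟩
  · haveI := hL
    exact IntermediateField.finiteDimensional_iSup_of_finite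
  · have h0 : (tm_rho J p GQ σ v - v).1 n = 0 := by
      rw [tm_sub_apply, tm_rho_apply, sub_eq_zero]
      exact hfix ⟨v.1 n, tm_tor v n⟩ σ
        (fun y hy => hσ y ((le_iSup L ⟨v.1 n, tm_tor v n⟩ : L _ ≤ ⨆ x, L x) hy))
    obtain ⟨y, hy⟩ := tm_exists_eq_smul _ n h0
    rw [hy]
    refine Submodule.smul_mem_smul ?_ Submodule.mem_top
    exact Ideal.pow_mem_pow (by
      rw [PadicInt.maximalIdeal_eq_span_p]
      exact Ideal.mem_span_singleton_self _) n

section HomFree

variable (G : Type*) [AddCommGroup G] [AddGroup.FG G] (R : Type*) [CommRing R]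

/-- `Hom(G, R)` is a finite `R`-module, `G` finitely generated, `R` noetherian. -/
theorem tm_hom_finite [IsNoetherianRing R] : Module.Finite R (G →+ R) := by
  obtain ⟨S, hS⟩ := AddGroup.fg_def.mp (inferInstance : AddGroup.FG G)
  let ev : (G →+ R) →ₗ[R] ({x : G // x ∈ S} → R) :=
    { toFun := fun ψ s => ψ s.1
      map_add' := fun _ _ => rfl
      map_smul' := fun _ _ => rfl }
  have hinj : Function.Injective ev := by
    intro ψ ψ' h
    refine AddMonoidHom.eq_of_eqOn_dense hS fun s hs => ?_
    exact congrFun h ⟨s, Finset.mem_coe.mp hs⟩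
  exact Module.Finite.of_injective ev hinj

/-- `Hom(G, R)` is torsion-free over a domain. -/
theorem tm_hom_isTorsionFree [IsDomain R] : Module.IsTorsionFree R (G →+ R) := by
  haveI : NoZeroSMulDivisors R (G →+ R) := ⟨fun {r ψ} h => by
    by_cases hr : r = 0
    · exact Or.inl hr
    · refine Or.inr (AddMonoidHom.ext fun g => ?_)
      have h1 := DFunLike.congr_fun h g
      rw [AddMonoidHom.smul_apply, AddMonoidHom.zero_apply, smul_eq_mul, mul_eq_zero] at h1
      exact h1.resolve_left hr⟩
  infer_instance

/-- `Hom(G, R)` is a free `R`-module, `G` finitely generated, `R` a principal ideal domain. -/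
theorem tm_hom_free [IsDomain R] [IsPrincipalIdealRing R] : Module.Free R (G →+ R) := by
  haveI := tm_hom_finite G R
  haveI := tm_hom_isTorsionFree G R
  exact Module.free_of_finite_type_torsion_free'

end HomFree

end Fermat.Agent.JT3
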