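/-
JT3, node G5: THE TATE MODULE OF `J₀(N)` IS THE LATTICE `Hom(H, ℤ_p)`, `H = Γ₀(N)^ab/(par, ell)`.

From the T1 gateway (`gw_picMap`, injective; bijective under the surjectivity hypothesis `hsurj` =
the conclusion of `gw_surj_bar` at the levels `p ^ n`; level compatibility `gw_picMap_level`):

* `tj_finite N p n` : `J₀(N)[p ^ n]` is finite (unconditional);
* `tj_charSystem N p hsurj : tl_CharSystem (JZero N) p Γ₀(N) ℂˣ {par/ell}`;
* `tj_lattice N p hsurj : tj_T N p ≃ₗ[ℤ_[p]] (gh_H N →+ ℤ_[p])`, with `tj_lattice_spec`;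
* `tj_free`, `tj_finiteModule` : the Tate module is a finite free `ℤ_p`-module;
* `tj_lattice_hecke` : if `T_ℓ` acts on the characters of the torsion points through helper5's coset
  operator `t2c_T` (the seam (b) = `gwh_picMap_hecke` of the T1 architect), then
  `tj_lattice (T_ℓ x) = (tj_lattice x) ∘ t2e_TH`.
-/
import Mathlib
import Fermat.Agent.JT3.Gateway.Level
import Fermat.Agent.JT3.Gateway.Finite
import Fermat.Agent.JT3.T2.ParEll
import Fermat.Agent.JT3.Tate.Limit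
import Fermat.Agent.JT3.Tate.Continuous
import Fermat.Prelude.Def_ModularCurve_HeckeModule

set_option autoImplicit false
set_option linter.unusedSectionVars false
set_option linter.style.haveILetI false
set_option synthInstance.maxHeartbeats 400000
set_option maxHeartbeats 1000000

noncomputable section

namespace Fermat.Agent.JT3

open ModularCurve AlgebraicCurve Fermat.Agent.S24 CongruenceSubgroup
open Fermat.Agent.S24.Br
open scoped MatrixGroups

variable (N p : ℕ) [NeZero N] [hp : Fact p.Prime]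

theorem tj_pow_ne_zero (n : ℕ) : p ^ n ≠ 0 := pow_ne_zero n hp.out.ne_zero

theorem tj_mem_torsion {n : ℕ} {x : JZero N} :
    x ∈ Pic0.torsion Kbar (Fbar N) (p ^ n) ↔ p ^ n • x = 0 := by
  rw [Pic0.mem_torsion, natCast_zsmul]

/-- the character map of level `p ^ n` -/
def tj_E (n : ℕ) : Pic0.torsion Kbar (Fbar N) (p ^ n) →+ Additive (gw_X N (p ^ n)) :=
  gw_picMap (tj_pow_ne_zero p n) (rt_isSepGen_jBar N) (gw_ctxBar_complete N)
    (gw_ctxBar_rational N)

theorem tj_E_injective (n : ℕ) : Function.Injective (tj_E N p n) :=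
  gw_picMap_injective (tj_pow_ne_zero p n) (rt_isSepGen_jBar N) (gw_ctxBar_complete N)
    (gw_ctxBar_rational N)

/-- `J₀(N)[p ^ n]` is finite -/
theorem tj_finite (n : ℕ) : Finite {x : JZero N // p ^ n • x = 0} := by
  haveI := gw_finite_char N (tj_pow_ne_zero p n)
  let f : {x : JZero N // p ^ n • x = 0} → {χ : ↥(Gamma0 N) →* ℂˣ // χ ^ (p ^ n) = 1} :=
    fun x => ⟨((Additive.toMul (tj_E N p n ⟨x.1, (tj_mem_torsion N p).mpr x.2⟩) :
      gw_X N (p ^ n)) : ↥(Gamma0 N) →* ℂˣ), (Additive.toMul (tj_E N p n _)).2.1⟩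
  refine Finite.of_injective f ?_
  intro x y h
  have h1 : tj_E N p n ⟨x.1, (tj_mem_torsion N p).mpr x.2⟩ =
      tj_E N p n ⟨y.1, (tj_mem_torsion N p).mpr y.2⟩ := by
    apply Additive.toMul.injective
    apply Subtype.ext
    have h0 := congrArg Subtype.val h
    exact h0
  have h2 := tj_E_injective N p n h1
  exact Subtype.ext (congrArg Subtype.val h2)

open Classical in
/-- the character of a torsion point (`1` outside the `p ^ n`-torsion) -/
def tj_chi (n : ℕ) (x : JZero N) : ↥(Gamma0 N) →* ℂˣ :=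
  if h : p ^ n • x = 0 then
    ((Additive.toMul (tj_E N p n ⟨x, (tj_mem_torsion N p).mpr h⟩) : gw_X N (p ^ n)) :
      ↥(Gamma0 N) →* ℂˣ)
  else 1

theorem tj_chi_eq {n : ℕ} {x : JZero N} (h : p ^ n • x = 0) :
    tj_chi N p n x =
      ((Additive.toMul (tj_E N p n ⟨x, (tj_mem_torsion N p).mpr h⟩) : gw_X N (p ^ n)) :
        ↥(Gamma0 N) →* ℂˣ) := by
  rw [tj_chi, dif_pos h]

/-- `gw_picMap` does not depend on the way the level is written -/
theorem tj_picMap_congr {a b : ℕ} (hab : a = b) (ha : a ≠ 0) (hb : b ≠ 0) (y : JZero N)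
    (hya : y ∈ Pic0.torsion Kbar (Fbar N) a) (hyb : y ∈ Pic0.torsion Kbar (Fbar N) b) :
    ((Additive.toMul (gw_picMap ha (rt_isSepGen_jBar N) (gw_ctxBar_complete N)
        (gw_ctxBar_rational N) ⟨y, hya⟩) : gw_X N a) : ↥(Gamma0 N) →* ℂˣ) =
      ((Additive.toMul (gw_picMap hb (rt_isSepGen_jBar N) (gw_ctxBar_complete N)
        (gw_ctxBar_rational N) ⟨y, hyb⟩) : gw_X N b) : ↥(Gamma0 N) →* ℂˣ) := by
  subst hab
  rfl

theorem tj_chi_add (n : ℕ) (x y : JZero N) (hx : p ^ n • x = 0) (hy : p ^ n • y = 0) :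
    tj_chi N p n (x + y) = tj_chi N p n x * tj_chi N p n y := by
  have hxy : p ^ n • (x + y) = 0 := by rw [nsmul_add, hx, hy, add_zero]
  rw [tj_chi_eq N p hxy, tj_chi_eq N p hx, tj_chi_eq N p hy]
  have h : (⟨x + y, (tj_mem_torsion N p).mpr hxy⟩ : Pic0.torsion Kbar (Fbar N) (p ^ n)) =
      ⟨x, (tj_mem_torsion N p).mpr hx⟩ + ⟨y, (tj_mem_torsion N p).mpr hy⟩ := rfl
  rw [h, map_add]
  rfl

theorem tj_chi_inj (n : ℕ) (x : JZero N) (hx : p ^ n • x = 0) (h : tj_chi N p n x = 1) :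
    x = 0 := by
  rw [tj_chi_eq N p hx] at h
  have h1 : tj_E N p n ⟨x, (tj_mem_torsion N p).mpr hx⟩ = 0 := by
    apply Additive.toMul.injective
    apply Subtype.ext
    exact h
  have h2 := tj_E_injective N p n (h1.trans (map_zero (tj_E N p n)).symm)
  exact congrArg Subtype.val h2

theorem tj_chi_level (n : ℕ) (y : JZero N) (hy : p ^ (n + 1) • y = 0) :
    tj_chi N p n (p • y) = tj_chi N p (n + 1) y ^ p := by
  have hpy : p ^ n • (p • y) = 0 := by rw [← mul_nsmul', ← pow_succ]; exact hy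
  rw [tj_chi_eq N p hpy, tj_chi_eq N p hy]
  have hy' : y ∈ Pic0.torsion Kbar (Fbar N) (p ^ n * p) := by
    rw [← pow_succ]; exact (tj_mem_torsion N p).mpr hy
  have h := gw_picMap_level (rt_isSepGen_jBar N) (tj_pow_ne_zero p n) hp.out.ne_zero
    (gw_ctxBar_complete N) (gw_ctxBar_rational N) ⟨y, hy'⟩
  have e1 := tj_picMap_congr N (pow_succ p n) (tj_pow_ne_zero p (n + 1))
    (mul_ne_zero (tj_pow_ne_zero p n) hp.out.ne_zero) y ((tj_mem_torsion N p).mpr hy) hy'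
  exact h.trans (congrArg (· ^ p) e1.symm)

theorem tj_chi_rel (n : ℕ) (x : JZero N) (hx : p ^ n • x = 0) (γ : ↥(Gamma0 N))
    (hγ : γ ∈ {γ : ↥(Gamma0 N) | gh_IsParEll N γ}) : tj_chi N p n x γ = 1 := by
  rw [tj_chi_eq N p hx]
  exact (Additive.toMul (tj_E N p n _)).2.2 γ hγ

/-- the surjectivity hypothesis: the conclusion of `gw_surj_bar` at the levels `p ^ n` -/
def tj_Surj : Prop :=
  ∀ n : ℕ, ∀ χ ∈ gw_X N (p ^ n), ∃ f₀ : Fbar N, gw_IsDiv Kbar (p ^ n) f₀ ∧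
    gw_HasChar (gw_ctxBar N) (p ^ n) f₀ χ

variable {N p}

theorem tj_chi_surj (hsurj : tj_Surj N p) (n : ℕ) (ξ : ↥(Gamma0 N) →* ℂˣ)
    (h1 : ξ ^ (p ^ n) = 1) (h2 : ∀ γ ∈ {γ : ↥(Gamma0 N) | gh_IsParEll N γ}, ξ γ = 1) :
    ∃ x : JZero N, p ^ n • x = 0 ∧ tj_chi N p n x = ξ := by
  have hξ : ξ ∈ gw_X N (p ^ n) := ⟨h1, h2⟩
  obtain ⟨y, hy⟩ := gw_picMap_surjective (tj_pow_ne_zero p n) (rt_isSepGen_jBar N)
    (gw_ctxBar_complete N) (gw_ctxBar_rational N) (hsurj n) (Additive.ofMul ⟨ξ, hξ⟩)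
  have hy0 : p ^ n • (y : JZero N) = 0 := (tj_mem_torsion N p).mp y.2
  refine ⟨y, hy0, ?_⟩
  rw [tj_chi_eq N p hy0]
  have : tj_E N p n ⟨(y : JZero N), (tj_mem_torsion N p).mpr hy0⟩ = Additive.ofMul ⟨ξ, hξ⟩ := hy
  rw [this]
  rfl

/-- the system of character maps of `J₀(N)` -/
def tj_charSystem (hsurj : tj_Surj N p) :
    tl_CharSystem (JZero N) p ↥(Gamma0 N) ℂˣ {γ : ↥(Gamma0 N) | gh_IsParEll N γ} where
  χ := tj_chi N p
  map_add := tj_chi_add N p
  inj := tj_chi_inj N p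
  level := tj_chi_level N p
  rel := tj_chi_rel N p
  surj := tj_chi_surj hsurj

variable (N p)

/-- `Hom(H, ℤ_p)` as the homomorphisms `Γ₀(N) → ℤ_p` killing the parabolic and elliptic elements -/
def tj_homEquiv :
    (gh_H N →+ ℤ_[p]) ≃ₗ[ℤ_[p]] tl_Hom ↥(Gamma0 N) {γ : ↥(Gamma0 N) | gh_IsParEll N γ} p where
  toFun ψ := ⟨ψ.comp (gh_mk N), fun γ hγ => gh_comp_mk_parEll ψ γ hγ⟩
  map_add' _ _ := rfl
  map_smul' _ _ := rfl
  invFun φ := gh_lift φ.1 (fun γ hγ => φ.2 γ hγ)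
  left_inv ψ := gh_hom_ext fun x => by rw [gh_lift_mk]; rfl
  right_inv φ := Subtype.ext (AddMonoidHom.ext fun x => gh_lift_mk φ.1 (fun γ hγ => φ.2 γ hγ) x)

variable {N p}

/-- **the Tate module of `J₀(N)` is `Hom(H, ℤ_p)`** -/
def tj_lattice (hsurj : tj_Surj N p) : tm_T (JZero N) p ≃ₗ[ℤ_[p]] (gh_H N →+ ℤ_[p]) :=
  (tl_equiv (tl_rootsComplex p) (tj_charSystem hsurj)).trans (tj_homEquiv N p).symm

theorem tj_lattice_apply (hsurj : tj_Surj N p) (x : tm_T (JZero N) p) (γ : ↥(Gamma0 N)) :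
    tj_lattice hsurj x (gh_mk N (Additive.ofMul γ)) =
      (tl_equiv (tl_rootsComplex p) (tj_charSystem hsurj) x : Additive ↥(Gamma0 N) →+ ℤ_[p])
        (Additive.ofMul γ) := by
  exact gh_lift_mk (tl_equiv (tl_rootsComplex p) (tj_charSystem hsurj) x).1
    (fun γ hγ => (tl_equiv (tl_rootsComplex p) (tj_charSystem hsurj) x).2 γ hγ) (Additive.ofMul γ)

/-- the characterisation of `tj_lattice` -/
theorem tj_lattice_spec (hsurj : tj_Surj N p) (x : tm_T (JZero N) p) (γ : ↥(Gamma0 N)) (n : ℕ) :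
    tj_chi N p n (x.1 n) γ =
      tl_zetaC p n ^ (PadicInt.toZModPow n (tj_lattice hsurj x (gh_mk N (Additive.ofMul γ)))).val := by
  rw [tj_lattice_apply]
  exact tl_equiv_spec (tl_rootsComplex p) (tj_charSystem hsurj) x γ n

theorem tj_free (hsurj : tj_Surj N p) : Module.Free ℤ_[p] (tm_T (JZero N) p) := by
  haveI : Module.Free ℤ_[p] (gh_H N →+ ℤ_[p]) := tm_hom_free (gh_H N) ℤ_[p]
  exact Module.Free.of_equiv (tj_lattice hsurj).symm

theorem tj_finiteModule (hsurj : tj_Surj N p) : Module.Finite ℤ_[p] (tm_T (JZero N) p) := by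
  haveI : Module.Finite ℤ_[p] (gh_H N →+ ℤ_[p]) := tm_hom_finite (gh_H N) ℤ_[p]
  exact Module.Finite.equiv (tj_lattice hsurj).symm

/-- **Hecke equivariance of the lattice form**, from the seam (b) of the T1 gateway. -/
theorem tj_lattice_hecke (hsurj : tj_Surj N p) (ℓ : ℕ) [hℓ : Fact ℓ.Prime] (hℓN : ¬ ℓ ∣ N)
    (hH : ∀ (n : ℕ) (y : JZero N), p ^ n • y = 0 →
      tj_chi N p n (heckeOperatorBar N ⟨ℓ, hℓ.out⟩ y) = t2c_T hℓN (tj_chi N p n y))
    (x : tm_T (JZero N) p) :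
    tj_lattice hsurj (tm_map (JZero N) p (heckeOperatorBar N ⟨ℓ, hℓ.out⟩).toAddMonoidHom x) =
      (tj_lattice hsurj x).comp (t2e_TH hℓN) := by
  refine gh_hom_ext fun g => ?_
  obtain ⟨γ, rfl⟩ := Additive.ofMul.surjective g
  rw [tj_lattice_apply, AddMonoidHom.comp_apply, t2e_TH_mk, map_sum]
  have h := tl_equiv_map (tl_rootsComplex p) (tj_charSystem hsurj)
    (heckeOperatorBar N ⟨ℓ, hℓ.out⟩).toAddMonoidHom (fun x γ => t2c_coc hℓN x γ)
    (fun n y hy γ => by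
      show tj_chi N p n (heckeOperatorBar N ⟨ℓ, hℓ.out⟩ y) γ = _
      rw [hH n y hy, t2c_T_apply]
      rfl) x γ
  rw [h]
  exact Finset.sum_congr rfl fun i _ => (tj_lattice_apply hsurj x _).symm

end Fermat.Agent.JT3
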