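/-
JT3, node G5: THE TATE MODULE OF `J₀(N)` — Galois action, Hecke operators, and the inputs (4)(c).

`tj_T N p := tm_T (JZero N) p` with
* `tj_rho N p : Gal(ℚ̄/ℚ) →* End_{ℤ_p}`, `tj_hecke N p ℓ` (the TRUE `T_ℓ = α_* β^*`, all primes `ℓ`);
* `tj_commute` : `T_ℓ` commutes with Galois (from `egh_comm`);
* `tj_cont` : adic continuity (from `egs_exists_fixing`), given the finiteness of `J₀(N)[p ^ n]`;
* `tj_unram`, `tj_frob` : unramified outside `N p` and `ρ(φ)² - T_ℓ ρ(φ) + ℓ = 0` at Frobenius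
  elements (from `est_unramified`, `est_frobQuadratic`: hypotheses node E at level `N` and S18).
-/
import Mathlib
import Fermat.Agent.JT3.ES.Torsion
import Fermat.Agent.JT3.ES.GaloisHecke
import Fermat.Agent.JT3.ES.Smooth
import Fermat.Agent.JT3.Tate.Continuous

set_option autoImplicit false
set_option linter.unusedSectionVars false
set_option linter.style.haveILetI false
set_option synthInstance.maxHeartbeats 400000
set_option maxHeartbeats 1000000

noncomputable section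

namespace Fermat.Agent.JT3

open ModularCurve AlgebraicCurve

local notation "GQ" => (AlgebraicClosure ℚ ≃ₐ[ℚ] AlgebraicClosure ℚ)

variable (N p : ℕ) [NeZero N] [hp : Fact p.Prime]

/-- the `p`-adic Tate module of `J₀(N)` -/
abbrev tj_T : Type := tm_T (JZero N) p

/-- the Galois action on the Tate module -/
def tj_rho : GQ →* Module.End ℤ_[p] (tj_T N p) := tm_rho (JZero N) p GQ

/-- the Hecke operator `T_ℓ` on the Tate module -/
def tj_hecke (ℓ : Nat.Primes) : Module.End ℤ_[p] (tj_T N p) :=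
  tm_map (JZero N) p (heckeOperatorBar N ℓ).toAddMonoidHom

theorem tj_rho_apply (σ : GQ) (x : tj_T N p) (n : ℕ) : (tj_rho N p σ x).1 n = σ • x.1 n := rfl

theorem tj_hecke_apply (ℓ : Nat.Primes) (x : tj_T N p) (n : ℕ) :
    (tj_hecke N p ℓ x).1 n = heckeOperatorBar N ℓ (x.1 n) := rfl

/-- Galois commutes with the Hecke operators -/
theorem tj_commute (ℓ : Nat.Primes) (σ : GQ) : Commute (tj_hecke N p ℓ) (tj_rho N p σ) := by
  refine LinearMap.ext fun x => tm_ext fun n => ?_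
  show heckeOperatorBar N ℓ (σ • x.1 n) = σ • heckeOperatorBar N ℓ (x.1 n)
  exact (egh_comm N ℓ σ _).symm

/-- adic continuity -/
theorem tj_cont (hfin : ∀ n : ℕ, Finite {x : JZero N // p ^ n • x = 0}) :
    GaloisActionIsAdicContinuous ℤ_[p] (tj_rho N p) :=
  tm_adicContinuous hfin fun x _ => egs_exists_fixing N x

section ES

variable
    (hE : ∀ ℓ : ℕ, ℓ.Prime → ¬ ℓ ∣ N →
      ∀ A : ValuationSubring (AlgebraicClosure ℚ), A.LiesOverPrime ℓ → ReductionInputsModL A N)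
    (hS18 : ∀ ℓ : ℕ, ℓ.Prime → ¬ ℓ ∣ N →
      ∀ A : ValuationSubring (AlgebraicClosure ℚ), A.LiesOverPrime ℓ →
        ReductionInputsModL A N → ∀ m : ℕ, ¬ ℓ ∣ m → ∀ z : JZero N, m • z = 0 →
          reductionModL A N z = 0 → z = 0)

include hE hS18

theorem tj_not_dvd {q : ℕ} (hq : q.Prime) (hqN : ¬ q ∣ N) (hqp : q ≠ p) : ¬ q ∣ N * p := by
  rw [hq.dvd_mul, not_or]
  exact ⟨hqN, fun h => hqp ((Nat.prime_dvd_prime_iff_eq hq hp.out).mp h)⟩

/-- the Tate module is unramified outside `N p` -/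
theorem tj_unram (q : ℕ) (hq : q.Prime) (hqN : ¬ q ∣ N) (hqp : q ≠ p)
    (P : ValuationSubring (AlgebraicClosure ℚ)) (hP : P.LiesOverPrime q) (σ : GQ)
    (hσ : σ ∈ P.inertiaSubgroupIn ℚ) : tj_rho N p σ = 1 := by
  refine LinearMap.ext fun x => tm_ext fun n => ?_
  show σ • x.1 n = x.1 n
  exact est_unramified N p hE hS18 q hq (tj_not_dvd N p hE hS18 hq hqN hqp) P hP σ hσ (x.1 n)
    ⟨n, tm_tor x n⟩

/-- the Eichler–Shimura relation on the Tate module -/
theorem tj_frob (ℓ : ℕ) (hℓ : ℓ.Prime) (hℓN : ¬ ℓ ∣ N) (hℓp : ℓ ≠ p)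
    (A : ValuationSubring (AlgebraicClosure ℚ)) (hA : A.LiesOverPrime ℓ) (φ : GQ)
    (hφ : A.IsFrobeniusAt φ ℓ) :
    tj_rho N p φ * tj_rho N p φ - tj_hecke N p ⟨ℓ, hℓ⟩ * tj_rho N p φ + (ℓ : ℤ_[p]) • 1 = 0 := by
  refine LinearMap.ext fun x => tm_ext fun n => ?_
  have h := est_frobQuadratic N p hE hS18 ℓ hℓ (tj_not_dvd N p hE hS18 hℓ hℓN hℓp) A hA φ hφ
    (x.1 n) ⟨n, tm_tor x n⟩
  rw [LinearMap.add_apply, LinearMap.sub_apply, LinearMap.smul_apply, Module.End.one_apply,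
    tm_add_apply, tm_sub_apply, tm_natCast_smul_apply]
  exact h

end ES

end Fermat.Agent.JT3
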