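/-
JT3, node G5: THE TATE PACKAGE OF `J₀(N)` — the inhabitant of helper25's seam `pk_Tate p N S`.

Inputs: everything is on main (T1 gateway `gw_surj_final`, `gwh_picEquiv_hecke`; T2-lite
`t2d_theta_pk`, `t2k_TH_comm`; `pkh_eigen_gen`; `Tate/JZero.lean`, `Tate/JZeroLattice.lean`)
EXCEPT the two hypotheses of `est_specializationExists`:
* `hE`   : node E at level `N` (`ReductionInputsModL A N` for every `A` over `ℓ ∤ N`),
* `hS18` : the statement of S18.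

* `tjp_surj N p : tj_Surj N p`, `tjp_hH` (Hecke equivariance of the characters of torsion points);
* `tjp_lattice N p : tm_T (JZero N) p ≃ₗ[ℤ_[p]] (gh_H N →+ ℤ_[p])`, `tjp_lattice_hecke`;
* `tjp_Tl N p S ℓ` (`T_ℓ` at good primes, `0` otherwise), `tjp_Tl_comm`, `tjp_eigen_gen`;
* **`tjp_tate N p S hpS hE hS18 : pk_Tate p N S`**.
-/
import Mathlib
import Fermat.Agent.JT3.Tate.JZero
import Fermat.Agent.JT3.Tate.JZeroLattice
import Fermat.Agent.JT3.Gateway.HeckeEquiv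
import Fermat.Agent.JT3.T2.Dual
import Fermat.Agent.JT3.T2.Comm
import Fermat.Agent.JT3.Pack.LatticeEigen
import Fermat.Agent.JT3.Algebra.CycloAdic

set_option autoImplicit false
set_option linter.unusedSectionVars false
set_option linter.style.haveILetI false
set_option synthInstance.maxHeartbeats 400000
set_option maxHeartbeats 1000000

noncomputable section

namespace Fermat.Agent.JT3

open ModularCurve AlgebraicCurve Fermat.Agent.S24 CongruenceSubgroup IsLocalRing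
open Fermat.Agent.S24.Br
open scoped MatrixGroups

local notation "GQ" => (AlgebraicClosure ℚ ≃ₐ[ℚ] AlgebraicClosure ℚ)

variable (N p : ℕ) [NeZero N] [hp : Fact p.Prime]

/-- T1: surjectivity at the levels `p ^ n` -/
theorem tjp_surj : tj_Surj N p := fun n => gw_surj_final N (tj_pow_ne_zero p n)

/-- `T_p J₀(N) = Hom(H, ℤ_p)` -/
def tjp_lattice : tm_T (JZero N) p ≃ₗ[ℤ_[p]] (gh_H N →+ ℤ_[p]) := tj_lattice (tjp_surj N p)

instance tjp_free : Module.Free ℤ_[p] (tj_T N p) := tj_free (tjp_surj N p)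

instance tjp_finite : Module.Finite ℤ_[p] (tj_T N p) := tj_finiteModule (tjp_surj N p)

/-- T2-lite (b): the characters of torsion points are Hecke equivariant -/
theorem tjp_hH (ℓ : ℕ) [hℓ : Fact ℓ.Prime] (hℓN : ¬ ℓ ∣ N) (n : ℕ) (y : JZero N)
    (hy : p ^ n • y = 0) :
    tj_chi N p n (heckeOperatorBar N ⟨ℓ, hℓ.out⟩ y) = t2c_T hℓN (tj_chi N p n y) := by
  have hTy : p ^ n • heckeOperatorBar N ⟨ℓ, hℓ.out⟩ y = 0 := by
    rw [← map_nsmul, hy, map_zero]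
  rw [tj_chi_eq N p hTy, tj_chi_eq N p hy]
  exact gwh_picEquiv_hecke N (tj_pow_ne_zero p n) ⟨ℓ, hℓ.out⟩ hℓN
    ⟨y, (tj_mem_torsion N p).mpr hy⟩

theorem tjp_lattice_hecke (ℓ : ℕ) [hℓ : Fact ℓ.Prime] (hℓN : ¬ ℓ ∣ N) (x : tm_T (JZero N) p) :
    tjp_lattice N p (tj_hecke N p ⟨ℓ, hℓ.out⟩ x) = (tjp_lattice N p x).comp (t2e_TH hℓN) :=
  tj_lattice_hecke (tjp_surj N p) ℓ hℓN (tjp_hH N p ℓ hℓN) x

variable (S : Finset ℕ)

open Classical in
/-- the Hecke operators of the package: `T_ℓ` at the good primes, `0` otherwise -/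
def tjp_Tl (ℓ : ℕ) : Module.End ℤ_[p] (tj_T N p) :=
  if h : pk_Good N S ℓ then tj_hecke N p ⟨ℓ, h.1⟩ else 0

theorem tjp_Tl_good {ℓ : ℕ} (h : pk_Good N S ℓ) : tjp_Tl N p S ℓ = tj_hecke N p ⟨ℓ, h.1⟩ := by
  rw [tjp_Tl, dif_pos h]

theorem tjp_Tl_not_good {ℓ : ℕ} (h : ¬ pk_Good N S ℓ) : tjp_Tl N p S ℓ = 0 := by
  rw [tjp_Tl, dif_neg h]

/-- the intertwining property in the shape of `pkh_eigen_gen` -/
theorem tjp_he (ℓ : ℕ) (h : pk_Good N S ℓ) (x : tj_T N p) :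
    tjp_lattice N p (tjp_Tl N p S ℓ x) =
      (tjp_lattice N p x).comp (t2f_TH N ℓ).toAddMonoidHom := by
  haveI : Fact ℓ.Prime := ⟨h.1⟩
  rw [tjp_Tl_good N p S h, tjp_lattice_hecke N p ℓ h.2.1, t2f_TH_eq h.1 h.2.1]
  rfl

theorem tjp_Tl_comm (ℓ ℓ' : ℕ) : Commute (tjp_Tl N p S ℓ) (tjp_Tl N p S ℓ') := by
  by_cases h : pk_Good N S ℓ
  · by_cases h' : pk_Good N S ℓ'
    · haveI : Fact ℓ.Prime := ⟨h.1⟩
      haveI : Fact ℓ'.Prime := ⟨h'.1⟩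
      refine LinearMap.ext fun x => (tjp_lattice N p).injective ?_
      show tjp_lattice N p (tjp_Tl N p S ℓ (tjp_Tl N p S ℓ' x)) =
        tjp_lattice N p (tjp_Tl N p S ℓ' (tjp_Tl N p S ℓ x))
      rw [tjp_Tl_good N p S h, tjp_Tl_good N p S h', tjp_lattice_hecke N p ℓ h.2.1,
        tjp_lattice_hecke N p ℓ' h'.2.1, tjp_lattice_hecke N p ℓ' h'.2.1,
        tjp_lattice_hecke N p ℓ h.2.1, AddMonoidHom.comp_assoc, AddMonoidHom.comp_assoc,
        t2k_TH_comm h'.2.1 h.2.1]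
    · rw [tjp_Tl_not_good N p S h']
      exact Commute.zero_right _
  · rw [tjp_Tl_not_good N p S h]
    exact Commute.zero_left _

theorem tjp_Tl_rho (ℓ : ℕ) (σ : GQ) : Commute (tjp_Tl N p S ℓ) (tj_rho N p σ) := by
  by_cases h : pk_Good N S ℓ
  · rw [tjp_Tl_good N p S h]
    exact tj_commute N p _ σ
  · rw [tjp_Tl_not_good N p S h]
    exact Commute.zero_left _

/-- **the `eigen` clause for an arbitrary target ring** -/
theorem tjp_eigen_gen {R : Type} [CommRing R] [Algebra ℤ_[p] R]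
    (χ : CuspForm.heckeAlgebra N 2 (↑S : Set ℕ) →+* R) :
    ∃ χ₀ : ↥(Algebra.adjoin ℤ_[p] (pk_heckeSet N S (tjp_Tl N p S))) →ₐ[ℤ_[p]] R,
      ∀ (ℓ : ℕ) (hℓ : ℓ.Prime) (hℓN : ¬ ℓ ∣ N) (hℓS : ℓ ∉ (↑S : Set ℕ)),
        χ₀ ⟨tjp_Tl N p S ℓ, pk_mem_heckeSet (tjp_Tl N p S) hℓ hℓN hℓS⟩ =
          χ (CuspForm.heckeAlgebra.T hℓ hℓN hℓS) := by
  obtain ⟨θ, hθ, -⟩ := t2d_theta_pk N S
  exact pkh_eigen_gen p N S (tjp_lattice N p) (fun ℓ => (t2f_TH N ℓ).toAddMonoidHom) (t2d_Ts N)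
    (fun ℓ _ ψ => t2d_Ts_apply ℓ ψ) (tjp_Tl N p S) (tjp_he N p S) θ hθ χ

section Final

variable (hpS : p ∈ S)
    (hE : ∀ ℓ : ℕ, ℓ.Prime → ¬ ℓ ∣ N →
      ∀ A : ValuationSubring (AlgebraicClosure ℚ), A.LiesOverPrime ℓ → ReductionInputsModL A N)
    (hS18 : ∀ ℓ : ℕ, ℓ.Prime → ¬ ℓ ∣ N →
      ∀ A : ValuationSubring (AlgebraicClosure ℚ), A.LiesOverPrime ℓ →
        ReductionInputsModL A N → ∀ m : ℕ, ¬ ℓ ∣ m → ∀ z : JZero N, m • z = 0 →
          reductionModL A N z = 0 → z = 0)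

/-- **The Tate package of `J₀(N)`.** -/
def tjp_tate : pk_Tate p N S where
  Tp := tj_T N p
  ρ := tj_rho N p
  cont := tj_cont N p (tj_finite N p)
  unram := fun q hq hqN hqp P hP σ hσ => tj_unram N p hE hS18 q hq hqN hqp P hP σ hσ
  Tl := tjp_Tl N p S
  Tl_comm := tjp_Tl_comm N p S
  Tl_ρ := tjp_Tl_rho N p S
  frob := fun ℓ hℓ A hA φ hφ => by
    rw [tjp_Tl_good N p S hℓ]
    exact tj_frob N p hE hS18 ℓ hℓ.1 hℓ.2.1 (fun h => hℓ.2.2 (h ▸ Finset.mem_coe.mpr hpS)) A hA φ hφ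
  eigen := fun O' _ _ _ _ _ hpO χ => by
    letI : Algebra ℤ_[p] O' := (cya_padicHom p O' hpO).toAlgebra
    obtain ⟨χ₀, hχ₀⟩ := tjp_eigen_gen N p S χ
    exact ⟨χ₀.toRingHom, hχ₀⟩

end Final

end Fermat.Agent.JT3
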