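/-
JT3, node G5/G6: THE THREE CONSUMERS OF THE TATE PACKAGE, modulo the two inputs that are still in
progress (node E and S18), as ONE-LINE-READY statements (prefix `tjp_`).

* `tjp_NodeE` : node E at every level (`ReductionInputsModL A N` for every `A` over `ℓ ∤ N`);
* `tjp_S18`   : the statement of S18 at every level;
* `tjp_eigenGen : ur_EigenGen (tjp_tate N p S hpS hE hS18)`, `tjp_tateInput : ur_TateInput`;
* `tjp_S30 hE hS18` : the statement of S30 verbatim;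
* `tjp_S31 hE hS18 …` : the statement of S31 verbatim;
* `tjp_S37 hE hS18 …` : the statement of S37 verbatim.
-/
import Mathlib
import Fermat.Agent.JT3.Tate.Package
import Fermat.Agent.JT3.Pack.Main
import Fermat.Agent.JT3.Unram.Final
import Fermat.Agent.JT3.ES.Torsion

set_option autoImplicit false
set_option linter.unusedSectionVars false
set_option linter.style.haveILetI false
set_option synthInstance.maxHeartbeats 400000
set_option maxHeartbeats 1000000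

noncomputable section

namespace Fermat.Agent.JT3

open ModularCurve AlgebraicCurve Fermat.Agent.S24 CongruenceSubgroup IsLocalRing
open Fermat.Agent.S24.Br
open scoped MatrixGroups

/-- node E at every level -/
def tjp_NodeE : Prop :=
  ∀ (N : ℕ) [NeZero N] (ℓ : ℕ), ℓ.Prime → ¬ ℓ ∣ N →
    ∀ A : ValuationSubring (AlgebraicClosure ℚ), A.LiesOverPrime ℓ → ReductionInputsModL A N

/-- the statement of S18 at every level -/
def tjp_S18 : Prop :=
  ∀ (N : ℕ) [NeZero N] (ℓ : ℕ), ℓ.Prime → ¬ ℓ ∣ N →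
    ∀ A : ValuationSubring (AlgebraicClosure ℚ), A.LiesOverPrime ℓ →
      ReductionInputsModL A N → ∀ m : ℕ, ¬ ℓ ∣ m → ∀ z : JZero N, m • z = 0 →
        reductionModL A N z = 0 → z = 0

theorem tjp_eigenGen (N p : ℕ) [NeZero N] [Fact p.Prime] (S : Finset ℕ) (hpS : p ∈ S)
    (hE : ∀ ℓ : ℕ, ℓ.Prime → ¬ ℓ ∣ N →
      ∀ A : ValuationSubring (AlgebraicClosure ℚ), A.LiesOverPrime ℓ → ReductionInputsModL A N)
    (hS18 : ∀ ℓ : ℕ, ℓ.Prime → ¬ ℓ ∣ N →
      ∀ A : ValuationSubring (AlgebraicClosure ℚ), A.LiesOverPrime ℓ →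
        ReductionInputsModL A N → ∀ m : ℕ, ¬ ℓ ∣ m → ∀ z : JZero N, m • z = 0 →
          reductionModL A N z = 0 → z = 0) :
    ur_EigenGen (tjp_tate N p S hpS hE hS18) := by
  intro R _ _ χ
  obtain ⟨χ₀, hχ₀⟩ := tjp_eigen_gen N p S χ
  exact ⟨χ₀.toRingHom, hχ₀⟩

theorem tjp_tateInput (hE : tjp_NodeE) (hS18 : tjp_S18) : ur_TateInput := by
  intro p _ N _ S hpS _
  exact ⟨tjp_tate N p S hpS (hE N) (hS18 N), tjp_eigenGen N p S hpS (hE N) (hS18 N)⟩

/-- **S30** modulo node E and S18 -/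
theorem tjp_S30 (hE : tjp_NodeE) (hS18 : tjp_S18) :
    ∀ (p : ℕ) [Fact p.Prime] (N : ℕ) [NeZero N] (S : Finset ℕ)
      (_hpS : p ∈ S) (_hNS : ∀ q : ℕ, q.Prime → q ∣ N → q ∈ S), pk_S30Statement p N S :=
  fun p _ N _ S hpS hNS => pk_S30 (tjp_tate N p S hpS (hE N) (hS18 N)) hpS hNS

section S31

variable {p : ℕ} {N : ℕ} [NeZero N] {S : Finset ℕ}
  {𝒪 : Type} [CommRing 𝒪] [IsDomain 𝒪] [IsDiscreteValuationRing 𝒪]
  [IsAdicComplete (IsLocalRing.maximalIdeal 𝒪) 𝒪]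
  {θ : CuspForm.heckeAlgebra N 2 (↑S : Set ℕ) →+* IsLocalRing.ResidueField 𝒪}
  {T : Type} [CommRing T] [IsLocalRing T] [IsNoetherianRing T]
  [IsAdicComplete (IsLocalRing.maximalIdeal T) T] [Algebra 𝒪 T] [IsLocalHom (algebraMap 𝒪 T)]
  [Module.Finite 𝒪 T] [Module.Free 𝒪 T]

/-- **S31** modulo node E and S18 -/
theorem tjp_S31 (hE : tjp_NodeE) (hS18 : tjp_S18) (hp : p.Prime)
    (hp𝒪 : (p : 𝒪) ∈ IsLocalRing.maximalIdeal 𝒪) (hpS : p ∈ S)
    (hNS : ∀ q : ℕ, q.Prime → q ∣ N → q ∈ S)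
    (H : CuspForm.HeckeGaloisRepDatum N (↑S : Set ℕ) 𝒪 θ T)
    (q : ℕ) (hq : q.Prime) (hqS : q ∉ S) :
    H.ρ.IsUnramifiedAt q :=
  ur_S31 (tjp_tateInput hE hS18) hp hp𝒪 hpS hNS H q hq hqS

end S31

/-- **S37** modulo node E and S18 (at the level `N` only) -/
theorem tjp_S37 (N p : ℕ) [NeZero N]
    (hE : ∀ ℓ : ℕ, ℓ.Prime → ¬ ℓ ∣ N →
      ∀ A : ValuationSubring (AlgebraicClosure ℚ), A.LiesOverPrime ℓ → ReductionInputsModL A N)
    (hS18 : ∀ ℓ : ℕ, ℓ.Prime → ¬ ℓ ∣ N →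
      ∀ A : ValuationSubring (AlgebraicClosure ℚ), A.LiesOverPrime ℓ →
        ReductionInputsModL A N → ∀ m : ℕ, ¬ ℓ ∣ m → ∀ z : JZero N, m • z = 0 →
          reductionModL A N z = 0 → z = 0)
    (hcomm : ModularCurve.HeckeOperatorsCommuteBar N) :
    letI := ModularCurve.heckeModuleBar N
    ∀ (_ : SMulCommClass (AlgebraicClosure ℚ ≃ₐ[ℚ] AlgebraicClosure ℚ) ModularCurve.HeckeAlg
      (ModularCurve.JZero N)),
      ModularCurve.SpecializationExists (K := ℚ) (L := AlgebraicClosure ℚ) N p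
        (ModularCurve.JZero N) :=
  est_specializationExists N p hcomm hE hS18

end Fermat.Agent.JT3
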