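/-
JT3: THE TWO INPUTS OF THE CONSUMERS `tjp_S30`, `tjp_S31`, `tjp_S37` ARE THEOREMS.

* `tji_nodeE : tjp_NodeE` from `rpw_nodeE` (node E, `PlaceMap/WireNodeE.lean`);
* `tji_S18 : tjp_S18` from `Fermat.Agent.S18.result` (statement S18).
-/
import Mathlib
import Fermat.Agent.JT3.Tate.Consumers
import Fermat.Agent.JT3.PlaceMap.WireNodeE
import Fermat.Agent.S18

set_option autoImplicit false

namespace Fermat.Agent.JT3

open ModularCurve

/-- node E at every level -/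
theorem tji_nodeE : tjp_NodeE :=
  fun N _ ℓ hℓ hℓN A hA => rpw_nodeE N ℓ hℓ hℓN A hA

/-- S18 at every level -/
theorem tji_S18 : tjp_S18 :=
  fun N _ ℓ hℓ hℓN A hA h m hm z hmz hz =>
    @Fermat.Agent.S18.result N _ ℓ ⟨hℓ⟩ hℓN A hA h m hm z hmz hz

end Fermat.Agent.JT3
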