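/-
JT3, node G5: FREENESS OF THE TATE MODULE (generic, Mathlib only).

If `J[p ^ n]` has exactly `p ^ (r n)` elements for every `n`, then
* `p : J[p ^ (n+1)] → J[p ^ n]` is onto (`tm_div_of_card`),
* every `y ∈ J[p ^ n]` is the `n`-th component of an element of `tm_T J p`
  (`tm_exists_of_card`),
* `tm_T J p ≃ₗ[ℤ_[p]] (Fin r → ℤ_[p])` (`tm_equiv_of_card`), so the Tate module is free of
  rank `r` (`tm_free`).
-/
import Mathlib
import Fermat.Agent.JT3.Tate.Module

set_option autoImplicit false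
set_option linter.unusedSectionVars false
set_option linter.style.haveILetI false

noncomputable section

namespace Fermat.Agent.JT3

/-- the `p ^ n`-torsion subgroup -/
def tm_K (J : Type*) [AddCommGroup J] (p n : ℕ) : AddSubgroup J :=
  (nsmulAddMonoidHom (p ^ n) : J →+ J).ker

variable {J : Type*} [AddCommGroup J] {p : ℕ} [hp : Fact p.Prime]

theorem tm_mem_K {n : ℕ} {x : J} : x ∈ tm_K J p n ↔ p ^ n • x = 0 := Iff.rfl

theorem tm_card_K (n : ℕ) :
    Nat.card (tm_K J p n) = Nat.card {x : J // p ^ n • x = 0} :=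
  Nat.card_congr (Equiv.subtypeEquivRight fun _ => tm_mem_K)

/-- a compatible family of residues is a `p`-adic integer -/
theorem tm_exists_padic (c : ∀ n, ZMod (p ^ n))
    (hc : ∀ n, (ZMod.cast (c (n + 1)) : ZMod (p ^ n)) = c n) :
    ∃ a : ℤ_[p], ∀ n, PadicInt.toZModPow n a = c n := by
  have hstep : ∀ n, (c n).val ≡ (c (n + 1)).val [MOD p ^ n] := by
    intro n
    have h : (c n).val = (c (n + 1)).val % p ^ n := by
      rw [← hc n, ← ZMod.natCast_val, ZMod.val_natCast]
    rw [h]
    exact Nat.mod_modEq _ _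
  have hmod : ∀ m n, m ≤ n → (c m).val ≡ (c n).val [MOD p ^ m] := by
    intro m n hmn
    induction n, hmn using Nat.le_induction with
    | base => exact Nat.ModEq.refl _
    | succ n hmn ih => exact ih.trans ((hstep n).of_dvd (pow_dvd_pow p hmn))
  have hmem : ∀ m n, m ≤ n → (((c m).val : ℕ) : ℤ_[p]) - (((c n).val : ℕ) : ℤ_[p]) ∈
      Ideal.span {(p : ℤ_[p]) ^ m} := by
    intro m n hmn
    obtain ⟨k, hk⟩ := (Nat.modEq_iff_dvd).mp (hmod m n hmn)
    have h2 := congrArg (Int.cast : ℤ → ℤ_[p]) hk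
    push_cast at h2
    refine Ideal.mem_span_singleton.mpr ⟨-(k : ℤ_[p]), ?_⟩
    linear_combination (-1 : ℤ_[p]) * h2
  obtain ⟨L, hL⟩ := IsPrecomplete.prec
    (IsAdicComplete.toIsPrecomplete : IsPrecomplete (IsLocalRing.maximalIdeal ℤ_[p]) ℤ_[p])
    (f := fun n => (((c n).val : ℕ) : ℤ_[p])) (by
      intro m n hmn
      have := hmem m n hmn
      simpa only [← Ideal.one_eq_top, smul_eq_mul, mul_one, SModEq.sub_mem,
        PadicInt.maximalIdeal_eq_span_p, Ideal.span_singleton_pow] using this)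
  refine ⟨L, fun n => ?_⟩
  have h := hL n
  simp only [← Ideal.one_eq_top, smul_eq_mul, mul_one, SModEq.sub_mem,
    PadicInt.maximalIdeal_eq_span_p, Ideal.span_singleton_pow] at h
  rw [← PadicInt.ker_toZModPow, RingHom.mem_ker, map_sub, sub_eq_zero, map_natCast,
    ZMod.natCast_zmod_val] at h
  exact h.symm

section Card

variable {r : ℕ}

/-- divisibility of the `p`-power torsion, from the count -/
theorem tm_div_of_card (hcard : ∀ n, Nat.card {x : J // p ^ n • x = 0} = p ^ (r * n)) (n : ℕ)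
    {y : J} (hy : p ^ n • y = 0) : ∃ z : J, p • z = y := by
  have hp0 : 0 < p := hp.out.pos
  have hcardK : ∀ n, Nat.card (tm_K J p n) = p ^ (r * n) := fun n => (tm_card_K n).trans (hcard n)
  let φ : tm_K J p (n + 1) →+ J := (nsmulAddMonoidHom p).comp (tm_K J p (n + 1)).subtype
  have hφ : ∀ z, φ z = p • (z : J) := fun _ => rfl
  have hle : φ.range ≤ tm_K J p n := by
    rintro _ ⟨z, rfl⟩
    rw [tm_mem_K, hφ, ← mul_nsmul', ← pow_succ]
    exact z.2
  have hker : Nat.card φ.ker = p ^ r := by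
    have e : φ.ker ≃ tm_K J p 1 :=
      { toFun := fun z => ⟨(z.1 : J), by
          have := z.2
          rw [AddMonoidHom.mem_ker, hφ] at this
          rw [tm_mem_K, pow_one]; exact this⟩
        invFun := fun w => ⟨⟨(w : J), by
          have := w.2
          rw [tm_mem_K, pow_one] at this
          rw [tm_mem_K, pow_succ', mul_nsmul, this, smul_zero]⟩, by
          have := w.2
          rw [tm_mem_K, pow_one] at this
          rw [AddMonoidHom.mem_ker, hφ]; exact this⟩
        left_inv := fun _ => rfl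
        right_inv := fun _ => rfl }
    rw [Nat.card_congr e, hcardK 1, mul_one]
  have hrange : Nat.card φ.range = p ^ (r * n) := by
    have h1 := AddSubgroup.card_mul_index φ.ker
    rw [AddSubgroup.index_ker, hker, hcardK (n + 1)] at h1
    have h2 : p ^ (r * (n + 1)) = p ^ r * p ^ (r * n) := by rw [← pow_add]; ring_nf
    rw [h2] at h1
    exact Nat.eq_of_mul_eq_mul_left (pow_pos hp0 r) h1
  haveI : Finite (tm_K J p n) :=
    Nat.finite_of_card_ne_zero (by rw [hcardK n]; exact pow_ne_zero _ hp0.ne')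
  have heq : φ.range = tm_K J p n :=
    AddSubgroup.eq_of_le_of_card_ge hle (by rw [hcardK n, hrange])
  have hy' : y ∈ φ.range := by rw [heq]; exact hy
  obtain ⟨z, hz⟩ := hy'
  exact ⟨(z : J), hz⟩

end Card

/-- lifting to the Tate module, from divisibility -/
theorem tm_exists_of_div (hdiv : ∀ y : J, (∃ n : ℕ, p ^ n • y = 0) → ∃ z : J, p • z = y)
    (n : ℕ) {y : J} (hy : p ^ n • y = 0) : ∃ x : tm_T J p, x.1 n = y := by
  let T := {z : J // ∃ m : ℕ, p ^ m • z = 0}
  have hstep : ∀ z : T, ∃ w : T, p • w.1 = z.1 := by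
    intro z
    obtain ⟨w, hw⟩ := hdiv z.1 z.2
    obtain ⟨m, hm⟩ := z.2
    exact ⟨⟨w, m + 1, by rw [pow_succ', mul_nsmul, hw, hm]⟩, hw⟩
  let g : ℕ → T := fun i => Nat.rec ⟨y, n, hy⟩ (fun _ z => Classical.choose (hstep z)) i
  have hg0 : (g 0).1 = y := rfl
  have hgs : ∀ i, p • (g (i + 1)).1 = (g i).1 := fun i => Classical.choose_spec (hstep (g i))
  have htor : ∀ i, p ^ (n + i) • (g i).1 = 0 := by
    intro i
    induction i with
    | zero => rw [add_zero, hg0, hy]
    | succ i ih => rw [← add_assoc, pow_succ', mul_nsmul, hgs, ih]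
  have hx : (fun k => p ^ (n - k) • (g (k - n)).1) ∈ tm_T J p := by
    intro k
    refine ⟨?_, ?_⟩
    · show p ^ k • p ^ (n - k) • (g (k - n)).1 = 0
      rcases le_total k n with h | h
      · obtain ⟨d, rfl⟩ := Nat.exists_eq_add_of_le h
        rw [Nat.add_sub_cancel_left, Nat.sub_eq_zero_of_le h, hg0, ← mul_nsmul, mul_comm,
          ← pow_add, hy]
      · obtain ⟨d, rfl⟩ := Nat.exists_eq_add_of_le h
        rw [Nat.add_sub_cancel_left, Nat.sub_eq_zero_of_le h, pow_zero, one_nsmul, htor]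
    · show p • p ^ (n - (k + 1)) • (g (k + 1 - n)).1 = p ^ (n - k) • (g (k - n)).1
      rcases lt_or_ge k n with h | h
      · obtain ⟨d, rfl⟩ := Nat.exists_eq_add_of_lt h
        have e1 : k + d + 1 - (k + 1) = d := by omega
        have e2 : k + 1 - (k + d + 1) = 0 := by omega
        have e3 : k + d + 1 - k = d + 1 := by omega
        have e4 : k - (k + d + 1) = 0 := by omega
        rw [e1, e2, e3, e4, ← mul_nsmul, mul_comm, ← pow_succ']
      · obtain ⟨d, rfl⟩ := Nat.exists_eq_add_of_le h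
        have e1 : n - (n + d + 1) = 0 := by omega
        have e2 : n + d + 1 - n = d + 1 := by omega
        have e3 : n - (n + d) = 0 := by omega
        have e4 : n + d - n = d := by omega
        rw [e1, e2, e3, e4, pow_zero, one_nsmul, one_nsmul, hgs]
  refine ⟨⟨_, hx⟩, ?_⟩
  show p ^ (n - n) • (g (n - n)).1 = y
  rw [Nat.sub_self, pow_zero, one_nsmul, hg0]

theorem tm_exists_gens_aux (p : ℕ) [hp : Fact p.Prime] (V : Type*) [AddCommGroup V]
    [Module (ZMod p) V] [Finite V] (r : ℕ) (hcard : Nat.card V = p ^ r) :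
    ∃ b : Fin r → V, ∀ y : V, ∃ c : Fin r → ℕ, y = ∑ i, c i • b i := by
  letI : Fintype V := Fintype.ofFinite _
  have hfr : Module.finrank (ZMod p) V = r := by
    have h := Module.card_eq_pow_finrank (K := ZMod p) (V := V)
    rw [← Nat.card_eq_fintype_card, hcard, ZMod.card] at h
    exact (Nat.pow_right_injective hp.out.two_le h).symm
  let B := Module.finBasisOfFinrankEq (ZMod p) V hfr
  refine ⟨fun i => B i, fun y => ⟨fun i => (B.repr y i).val, ?_⟩⟩
  conv_lhs => rw [← B.sum_repr y]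
  refine Finset.sum_congr rfl fun i _ => ?_
  rw [← Nat.cast_smul_eq_nsmul (ZMod p), ZMod.natCast_zmod_val]

/-- generators of the `p`-torsion, from the count -/
theorem tm_exists_gens {r : ℕ} (h1 : Nat.card {x : J // p ^ 1 • x = 0} = p ^ r) :
    ∃ b : Fin r → J, (∀ i, p • b i = 0) ∧
      ∀ y : J, p • y = 0 → ∃ c : Fin r → ℕ, y = ∑ i, c i • b i := by
  have hp0 : 0 < p := hp.out.pos
  have hcardK : Nat.card (tm_K J p 1) = p ^ r := (tm_card_K 1).trans h1
  have hV : ∀ x : tm_K J p 1, p • x = 0 := by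
    intro x
    apply Subtype.ext
    have := x.2
    rw [tm_mem_K, pow_one] at this
    exact this
  haveI : Finite (tm_K J p 1) :=
    Nat.finite_of_card_ne_zero (by rw [hcardK]; exact pow_ne_zero _ hp0.ne')
  obtain ⟨b, hb⟩ := @tm_exists_gens_aux p hp (tm_K J p 1) _ (AddCommGroup.zmodModule hV) _ r hcardK
  refine ⟨fun i => (b i : J), fun i => ?_, fun y hy => ?_⟩
  · have := (b i).2
    rw [tm_mem_K, pow_one] at this
    exact this
  · have hyK : y ∈ tm_K J p 1 := by rw [tm_mem_K, pow_one]; exact hy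
    obtain ⟨c, hc⟩ := hb ⟨y, hyK⟩
    refine ⟨c, ?_⟩
    have h := congrArg (tm_K J p 1).subtype hc
    rw [map_sum] at h
    exact h

/-- generators at level `1` generate at every level -/
theorem tm_span_level {r : ℕ} (e : Fin r → tm_T J p)
    (hspan : ∀ y : J, p • y = 0 → ∃ c : Fin r → ℕ, y = ∑ i, c i • (e i).1 1) (n : ℕ) :
    ∀ y : J, p ^ n • y = 0 → ∃ c : Fin r → ℕ, y = ∑ i, c i • (e i).1 n := by
  induction n with
  | zero =>
    intro y hy
    rw [pow_zero, one_nsmul] at hy
    refine ⟨fun _ => 0, ?_⟩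
    rw [hy]
    simp
  | succ n ih =>
    intro y hy
    obtain ⟨c, hc⟩ := hspan (p ^ n • y) (by rw [← mul_nsmul', ← pow_succ']; exact hy)
    have hw : p ^ n • (y - ∑ i, c i • (e i).1 (n + 1)) = 0 := by
      rw [smul_sub, hc, Finset.smul_sum, sub_eq_zero]
      refine Finset.sum_congr rfl fun i _ => ?_
      rw [smul_comm (p ^ n), add_comm n 1, tm_pow_smul]
    obtain ⟨d, hd⟩ := ih _ hw
    refine ⟨fun i => c i + p * d i, ?_⟩
    rw [sub_eq_iff_eq_add] at hd
    rw [hd, ← Finset.sum_add_distrib]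
    refine Finset.sum_congr rfl fun i _ => ?_
    rw [add_nsmul, mul_nsmul, tm_compat, add_comm]

/-- the coordinate map at level `n` -/
def tm_psi {r : ℕ} (e : Fin r → tm_T J p) (n : ℕ) (c : Fin r → ZMod (p ^ n)) : tm_K J p n :=
  ⟨∑ i, (c i).val • (e i).1 n, by
    rw [tm_mem_K, Finset.smul_sum]
    refine Finset.sum_eq_zero fun i _ => ?_
    rw [smul_comm, tm_tor, smul_zero]⟩

theorem tm_psi_bijective {r : ℕ} (e : Fin r → tm_T J p) (n : ℕ)
    (hcard : Nat.card {x : J // p ^ n • x = 0} = p ^ (r * n))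
    (hspan : ∀ y : J, p ^ n • y = 0 → ∃ c : Fin r → ℕ, y = ∑ i, c i • (e i).1 n) :
    Function.Bijective (tm_psi e n) := by
  have hsurj : Function.Surjective (tm_psi e n) := by
    rintro ⟨y, hy⟩
    obtain ⟨c, hc⟩ := hspan y hy
    refine ⟨fun i => (c i : ZMod (p ^ n)), Subtype.ext ?_⟩
    show ∑ i, ((c i : ZMod (p ^ n))).val • (e i).1 n = y
    rw [hc]
    exact Finset.sum_congr rfl fun i _ => tm_val_nsmul (tm_tor (e i) n) (c i)
  refine hsurj.bijective_of_nat_card_le ?_
  rw [tm_card_K, hcard, Nat.card_fun, Nat.card_zmod, Nat.card_fin, ← pow_mul, mul_comm]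

/-- the criterion: coordinates at every level give coordinates on the Tate module -/
theorem tm_linearCombination_bijective {r : ℕ} (e : Fin r → tm_T J p)
    (hbij : ∀ n, Function.Bijective (tm_psi e n)) :
    Function.Bijective (Fintype.linearCombination ℤ_[p] e) := by
  have hval : ∀ (a : Fin r → ℤ_[p]) (n : ℕ),
      (Fintype.linearCombination ℤ_[p] e a).1 n =
        (tm_psi e n (fun i => PadicInt.toZModPow n (a i)) : J) := by
    intro a n
    rw [Fintype.linearCombination_apply]
    show tm_proj J p n (∑ i, a i • e i) = _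
    rw [map_sum]
    rfl
  have hpsi0 : ∀ n, tm_psi e n 0 = 0 := by
    intro n
    apply Subtype.ext
    show ∑ i, ((0 : Fin r → ZMod (p ^ n)) i).val • (e i).1 n = 0
    refine Finset.sum_eq_zero fun i _ => ?_
    rw [Pi.zero_apply, ZMod.val_zero, zero_nsmul]
  constructor
  · rw [injective_iff_map_eq_zero]
    intro a ha
    funext i
    rw [Pi.zero_apply, ← PadicInt.ext_of_toZModPow]
    intro n
    rw [map_zero]
    have h1 : tm_psi e n (fun i => PadicInt.toZModPow n (a i)) = tm_psi e n 0 := by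
      rw [hpsi0]
      apply Subtype.ext
      rw [← hval, ha]
      rfl
    exact congrFun ((hbij n).1 h1) i
  · intro x
    have hc : ∀ n, ∃ c : Fin r → ZMod (p ^ n), tm_psi e n c = ⟨x.1 n, tm_tor x n⟩ :=
      fun n => (hbij n).2 _
    choose c hc using hc
    have hcompat : ∀ n i, (ZMod.cast (c (n + 1) i) : ZMod (p ^ n)) = c n i := by
      intro n
      have h1 : tm_psi e n (fun i => (ZMod.cast (c (n + 1) i) : ZMod (p ^ n))) = tm_psi e n (c n) := by
        rw [hc n]
        apply Subtype.ext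
        show ∑ i, (ZMod.cast (c (n + 1) i) : ZMod (p ^ n)).val • (e i).1 n = x.1 n
        have h2 := congrArg (fun z : tm_K J p (n + 1) => p • (z : J)) (hc (n + 1))
        simp only at h2
        rw [tm_compat] at h2
        rw [← h2]
        show _ = p • ∑ i, (c (n + 1) i).val • (e i).1 (n + 1)
        rw [Finset.smul_sum]
        refine Finset.sum_congr rfl fun i _ => ?_
        rw [tm_val_cast (tm_tor (e i) n), smul_comm p, tm_compat]
      exact fun i => congrFun ((hbij n).1 h1) i
    have ha : ∀ i, ∃ a : ℤ_[p], ∀ n, PadicInt.toZModPow n a = c n i :=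
      fun i => tm_exists_padic (fun n => c n i) (fun n => hcompat n i)
    choose a ha using ha
    refine ⟨a, tm_ext fun n => ?_⟩
    rw [hval]
    have : (fun i => PadicInt.toZModPow n (a i)) = c n := funext fun i => ha i n
    rw [this, hc n]

/-- **The Tate module is free of rank `r`** when `J[p ^ n]` has `p ^ (r n)` elements for all
`n`. -/
theorem tm_equiv_of_card (r : ℕ)
    (hcard : ∀ n, Nat.card {x : J // p ^ n • x = 0} = p ^ (r * n)) :
    Nonempty (tm_T J p ≃ₗ[ℤ_[p]] (Fin r → ℤ_[p])) := by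
  have hdiv : ∀ y : J, (∃ n : ℕ, p ^ n • y = 0) → ∃ z : J, p • z = y :=
    fun y ⟨n, hy⟩ => tm_div_of_card hcard n hy
  obtain ⟨b, hb, hspan⟩ := tm_exists_gens (by rw [hcard 1, mul_one] : Nat.card {x : J // p ^ 1 • x = 0} = p ^ r)
  have he : ∀ i, ∃ x : tm_T J p, x.1 1 = b i :=
    fun i => tm_exists_of_div hdiv 1 (by rw [pow_one]; exact hb i)
  choose e he using he
  have hspan1 : ∀ y : J, p • y = 0 → ∃ c : Fin r → ℕ, y = ∑ i, c i • (e i).1 1 := by
    intro y hy
    obtain ⟨c, hc⟩ := hspan y hy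
    exact ⟨c, by rw [hc]; exact Finset.sum_congr rfl fun i _ => by rw [he i]⟩
  have hbij := tm_linearCombination_bijective e
    (fun n => tm_psi_bijective e n (hcard n) (tm_span_level e hspan1 n))
  exact ⟨(LinearEquiv.ofBijective _ hbij).symm⟩

theorem tm_exists_of_card (r : ℕ)
    (hcard : ∀ n, Nat.card {x : J // p ^ n • x = 0} = p ^ (r * n)) (n : ℕ) {y : J}
    (hy : p ^ n • y = 0) : ∃ x : tm_T J p, x.1 n = y :=
  tm_exists_of_div (fun _ ⟨n, hy⟩ => tm_div_of_card hcard n hy) n hy

theorem tm_free (r : ℕ) (hcard : ∀ n, Nat.card {x : J // p ^ n • x = 0} = p ^ (r * n)) :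
    Module.Free ℤ_[p] (tm_T J p) ∧ Module.Finite ℤ_[p] (tm_T J p) ∧
      Module.finrank ℤ_[p] (tm_T J p) = r := by
  obtain ⟨f⟩ := tm_equiv_of_card (J := J) (p := p) r hcard
  exact ⟨Module.Free.of_equiv f.symm, Module.Finite.equiv f.symm,
    by rw [f.finrank_eq, Module.finrank_fin_fun]⟩

end Fermat.Agent.JT3
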