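import Mathlib
import Fermat.Agent.JT3.Tate.JZeroLattice
import Fermat.Agent.JT3.Gateway.HeckeEquiv
import Fermat.Agent.JT3.T2.Comm

/-!
# JT3 / G5: the T1 inputs of the Tate module of `J₀(N)`, discharged (prefix `tji_`)

helper1's `Tate/JZeroLattice.lean` is parametrised by
* `hsurj : tj_Surj N p` (surjectivity of the gateway at the levels `p ^ n`) and
* `hH` (Hecke equivariance of the characters of torsion points).

Both are theorems now (`gw_surj_final`, `gwh_picEquiv_hecke`).  This file states the unconditional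
forms: `tji_lattice N p : tm_T (JZero N) p ≃ₗ[ℤ_[p]] (gh_H N →+ ℤ_[p])`, `tji_lattice_hecke`,
freeness and finiteness as instances, and the commutativity of the Hecke operators on the Tate
module (`tji_hecke_comm`, from helper18's `t2k_TH_comm`).
-/

set_option autoImplicit false
set_option linter.unusedSectionVars false
set_option linter.style.haveILetI false
set_option synthInstance.maxHeartbeats 400000
set_option maxHeartbeats 1000000

noncomputable section

namespace Fermat.Agent.JT3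

open ModularCurve AlgebraicCurve Fermat.Agent.S24 CongruenceSubgroup
open Fermat.Agent.S24.Br
open scoped MatrixGroups

variable (N p : ℕ) [NeZero N] [hp : Fact p.Prime]

/-- surjectivity of the gateway at the levels `p ^ n` -/
theorem tji_surj : tj_Surj N p := fun n => gw_surj_final N (tj_pow_ne_zero p n)

/-- Hecke equivariance of the characters of torsion points (the hypothesis `hH` of
`tj_lattice_hecke`) -/
theorem tji_hecke (ℓ : ℕ) [hℓ : Fact ℓ.Prime] (hℓN : ¬ ℓ ∣ N) (n : ℕ) (y : JZero N)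
    (hy : p ^ n • y = 0) :
    tj_chi N p n (heckeOperatorBar N ⟨ℓ, hℓ.out⟩ y) = t2c_T hℓN (tj_chi N p n y) := by
  have hy' : y ∈ Pic0.torsion Kbar (Fbar N) (p ^ n) := (tj_mem_torsion N p).mpr hy
  have hTy : p ^ n • heckeOperatorBar N ⟨ℓ, hℓ.out⟩ y = 0 :=
    (tj_mem_torsion N p).mp (gwh_hecke_mem_torsion N ⟨ℓ, hℓ.out⟩ ⟨y, hy'⟩)
  rw [tj_chi_eq N p hTy, tj_chi_eq N p hy]
  exact gwh_picEquiv_hecke N (tj_pow_ne_zero p n) ⟨ℓ, hℓ.out⟩ hℓN ⟨y, hy'⟩

/-- **the Tate module of `J₀(N)` is `Hom(H₁(X₀(N)), ℤ_p)`**, unconditionally -/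
def tji_lattice : tm_T (JZero N) p ≃ₗ[ℤ_[p]] (gh_H N →+ ℤ_[p]) := tj_lattice (tji_surj N p)

theorem tji_lattice_spec (x : tm_T (JZero N) p) (γ : ↥(Gamma0 N)) (n : ℕ) :
    tj_chi N p n (x.1 n) γ =
      tl_zetaC p n ^
        (PadicInt.toZModPow n (tji_lattice N p x (gh_mk N (Additive.ofMul γ)))).val :=
  tj_lattice_spec (tji_surj N p) x γ n

instance tji_free : Module.Free ℤ_[p] (tm_T (JZero N) p) := tj_free (tji_surj N p)

instance tji_finite : Module.Finite ℤ_[p] (tm_T (JZero N) p) := tj_finiteModule (tji_surj N p)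

/-- **Hecke equivariance of the lattice form**: `T_ℓ` on the Tate module is `ψ ↦ ψ ∘ t2e_TH` -/
theorem tji_lattice_hecke (ℓ : ℕ) [hℓ : Fact ℓ.Prime] (hℓN : ¬ ℓ ∣ N) (x : tm_T (JZero N) p) :
    tji_lattice N p (tm_map (JZero N) p (heckeOperatorBar N ⟨ℓ, hℓ.out⟩).toAddMonoidHom x) =
      (tji_lattice N p x).comp (t2e_TH hℓN) :=
  tj_lattice_hecke (tji_surj N p) ℓ hℓN (tji_hecke N p ℓ hℓN) x

/-- **the Hecke operators at primes not dividing `N` commute on the Tate module** -/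
theorem tji_hecke_comm (ℓ ℓ' : ℕ) [hℓ : Fact ℓ.Prime] [hℓ' : Fact ℓ'.Prime] (hℓN : ¬ ℓ ∣ N)
    (hℓ'N : ¬ ℓ' ∣ N) :
    Commute (tm_map (JZero N) p (heckeOperatorBar N ⟨ℓ, hℓ.out⟩).toAddMonoidHom)
      (tm_map (JZero N) p (heckeOperatorBar N ⟨ℓ', hℓ'.out⟩).toAddMonoidHom) := by
  apply LinearMap.ext
  intro x
  apply (tji_lattice N p).injective
  show tji_lattice N p (tm_map (JZero N) p (heckeOperatorBar N ⟨ℓ, hℓ.out⟩).toAddMonoidHom
      (tm_map (JZero N) p (heckeOperatorBar N ⟨ℓ', hℓ'.out⟩).toAddMonoidHom x)) =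
    tji_lattice N p (tm_map (JZero N) p (heckeOperatorBar N ⟨ℓ', hℓ'.out⟩).toAddMonoidHom
      (tm_map (JZero N) p (heckeOperatorBar N ⟨ℓ, hℓ.out⟩).toAddMonoidHom x))
  rw [tji_lattice_hecke N p ℓ hℓN, tji_lattice_hecke N p ℓ' hℓ'N, tji_lattice_hecke N p ℓ' hℓ'N,
    tji_lattice_hecke N p ℓ hℓN, AddMonoidHom.comp_assoc, AddMonoidHom.comp_assoc,
    t2k_TH_comm hℓ'N hℓN]

end Fermat.Agent.JT3

end
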