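/-
JT3, node G5: THE TATE MODULE FROM A COMPATIBLE SYSTEM OF CHARACTER MAPS (generic, Mathlib only).

Data: an abelian group `J`, a prime `p`, a group `Γ` with a set `R ⊆ Γ` of relators, a commutative
group `M` with a compatible system `Z : tl_Roots M p` of primitive `p ^ n`-th roots of unity
generating the `p ^ n`-torsion of `M`, and `S : tl_CharSystem J p Γ M R`: for every `n` an injective
additive map `J[p ^ n] → Hom(Γ, M)`, onto the characters of exponent `p ^ n` which are trivial on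
`R`, compatible with `p : J[p ^ (n+1)] → J[p ^ n]` and `χ ↦ χ ^ p`.

Result: `tl_equiv Z S : tm_T J p ≃ₗ[ℤ_[p]] tl_Hom Γ R p`, the additive homomorphisms `Γ → ℤ_[p]`
vanishing on `R`, characterised by
`S.χ n (x n) γ = Z.ζ n ^ (tl_equiv Z S x γ mod p ^ n)` (`tl_equiv_spec`),
and equivariant for endomorphisms of `J` acting on characters through finitely many maps
`Γ → Γ` (`tl_equiv_map`; Hecke operators via the transfer).
-/
import Mathlib
import Fermat.Agent.JT3.Tate.Free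

set_option autoImplicit false
set_option linter.unusedSectionVars false
set_option linter.style.haveILetI false

noncomputable section

namespace Fermat.Agent.JT3

/-- a compatible system of primitive `p ^ n`-th roots of unity generating the `p`-power torsion -/
structure tl_Roots (M : Type*) [CommGroup M] (p : ℕ) where
  ζ : ℕ → M
  order : ∀ n, orderOf (ζ n) = p ^ n
  compat : ∀ n, ζ (n + 1) ^ p = ζ n
  exists_pow : ∀ n (z : M), z ^ (p ^ n) = 1 → ∃ a : ℕ, ζ n ^ a = z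

namespace tl_Roots

variable {M : Type*} [CommGroup M] {p : ℕ} [hp : Fact p.Prime] (Z : tl_Roots M p)

theorem pow_eq_pow_iff (n a b : ℕ) : Z.ζ n ^ a = Z.ζ n ^ b ↔ (a : ZMod (p ^ n)) = b := by
  rw [pow_eq_pow_iff_modEq, Z.order, ZMod.natCast_eq_natCast_iff]

theorem zeta_pow_eq_one (n : ℕ) : Z.ζ n ^ (p ^ n) = 1 := by
  rw [← Z.order n]; exact pow_orderOf_eq_one _

theorem zeta_pow_torsion (n a : ℕ) : (Z.ζ n ^ a) ^ (p ^ n) = 1 := by
  rw [← pow_mul, mul_comm, pow_mul, Z.zeta_pow_eq_one, one_pow]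

open Classical in
/-- the discrete logarithm on the `p ^ n`-torsion -/
def log (n : ℕ) (z : M) : ZMod (p ^ n) :=
  if h : z ^ (p ^ n) = 1 then ((Classical.choose (Z.exists_pow n z h) : ℕ) : ZMod (p ^ n)) else 0

theorem pow_log {n : ℕ} {z : M} (h : z ^ (p ^ n) = 1) : Z.ζ n ^ (Z.log n z).val = z := by
  rw [log, dif_pos h]
  have h1 := Classical.choose_spec (Z.exists_pow n z h)
  conv_rhs => rw [← h1]
  rw [Z.pow_eq_pow_iff, ZMod.natCast_zmod_val]

theorem log_zeta_pow (n a : ℕ) : Z.log n (Z.ζ n ^ a) = a := by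
  have h1 := Z.pow_log (Z.zeta_pow_torsion n a)
  rw [Z.pow_eq_pow_iff, ZMod.natCast_zmod_val] at h1
  exact h1

theorem log_one (n : ℕ) : Z.log n (1 : M) = 0 := by
  have h := Z.log_zeta_pow n 0
  rwa [pow_zero, Nat.cast_zero] at h

theorem log_mul {n : ℕ} {z w : M} (hz : z ^ (p ^ n) = 1) (hw : w ^ (p ^ n) = 1) :
    Z.log n (z * w) = Z.log n z + Z.log n w := by
  conv_lhs => rw [← Z.pow_log hz, ← Z.pow_log hw, ← pow_add]
  rw [Z.log_zeta_pow, Nat.cast_add, ZMod.natCast_zmod_val, ZMod.natCast_zmod_val]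

theorem log_pow {n : ℕ} {z : M} (hz : z ^ (p ^ n) = 1) (k : ℕ) :
    Z.log n (z ^ k) = k * Z.log n z := by
  conv_lhs => rw [← Z.pow_log hz, ← pow_mul]
  rw [Z.log_zeta_pow, Nat.cast_mul, ZMod.natCast_zmod_val, mul_comm]

theorem log_level {n : ℕ} {z : M} (hz : z ^ (p ^ (n + 1)) = 1) :
    Z.log n (z ^ p) = ZMod.cast (Z.log (n + 1) z) := by
  conv_lhs => rw [← Z.pow_log hz, ← pow_mul, mul_comm, pow_mul, Z.compat]
  rw [Z.log_zeta_pow, ZMod.natCast_val]

theorem eq_one_of_log_eq_zero {n : ℕ} {z : M} (hz : z ^ (p ^ n) = 1) (h : Z.log n z = 0) :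
    z = 1 := by
  rw [← Z.pow_log hz, h, ZMod.val_zero, pow_zero]

end tl_Roots

/-- a compatible system of character maps on the `p`-power torsion of `J` -/
structure tl_CharSystem (J : Type*) [AddCommGroup J] (p : ℕ) (Γ : Type*) [Group Γ]
    (M : Type*) [CommGroup M] (R : Set Γ) where
  χ : ℕ → J → (Γ →* M)
  map_add : ∀ n x y, p ^ n • x = 0 → p ^ n • y = 0 → χ n (x + y) = χ n x * χ n y
  inj : ∀ n x, p ^ n • x = 0 → χ n x = 1 → x = 0
  level : ∀ n y, p ^ (n + 1) • y = 0 → χ n (p • y) = χ (n + 1) y ^ p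
  rel : ∀ n x, p ^ n • x = 0 → ∀ γ ∈ R, χ n x γ = 1
  surj : ∀ n (ξ : Γ →* M), ξ ^ (p ^ n) = 1 → (∀ γ ∈ R, ξ γ = 1) →
    ∃ x, p ^ n • x = 0 ∧ χ n x = ξ

namespace tl_CharSystem

variable {J : Type*} [AddCommGroup J] {p : ℕ} {Γ : Type*} [Group Γ] {M : Type*} [CommGroup M]
  {R : Set Γ} (S : tl_CharSystem J p Γ M R)

theorem map_zero (n : ℕ) : S.χ n 0 = 1 := by
  have h := S.map_add n 0 0 (smul_zero _) (smul_zero _)
  rw [add_zero] at h
  exact (mul_eq_left.mp h.symm)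

theorem map_nsmul (n : ℕ) {x : J} (hx : p ^ n • x = 0) (k : ℕ) : S.χ n (k • x) = S.χ n x ^ k := by
  induction k with
  | zero => rw [zero_nsmul, pow_zero, S.map_zero]
  | succ k ih =>
    rw [succ_nsmul, pow_succ, S.map_add n _ _ (by rw [smul_comm, hx, smul_zero]) hx, ih]

theorem pow_eq_one (n : ℕ) {x : J} (hx : p ^ n • x = 0) : S.χ n x ^ (p ^ n) = 1 := by
  rw [← S.map_nsmul n hx, hx, S.map_zero]

theorem apply_pow_eq_one (n : ℕ) {x : J} (hx : p ^ n • x = 0) (γ : Γ) :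
    S.χ n x γ ^ (p ^ n) = 1 := by
  rw [← MonoidHom.pow_apply, S.pow_eq_one n hx, MonoidHom.one_apply]

theorem map_neg (n : ℕ) {x : J} (hx : p ^ n • x = 0) : S.χ n (-x) = (S.χ n x)⁻¹ := by
  have h := S.map_add n x (-x) hx (by rw [smul_neg, hx, neg_zero])
  rw [add_neg_cancel, S.map_zero] at h
  exact eq_inv_of_mul_eq_one_right h.symm

theorem eq_of_eq (n : ℕ) {x y : J} (hx : p ^ n • x = 0) (hy : p ^ n • y = 0)
    (h : S.χ n x = S.χ n y) : x = y := by
  have hny : p ^ n • (-y) = 0 := by rw [smul_neg, hy, neg_zero]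
  have h1 : S.χ n (x + -y) = 1 := by
    rw [S.map_add n x (-y) hx hny, S.map_neg n hy, h, mul_inv_cancel]
  have h2 := S.inj n (x + -y) (by rw [smul_add, hx, hny, add_zero]) h1
  rwa [← sub_eq_add_neg, sub_eq_zero] at h2

end tl_CharSystem

/-- additive homomorphisms `Γ → ℤ_[p]` vanishing on the relators -/
def tl_Hom (Γ : Type*) [Group Γ] (R : Set Γ) (p : ℕ) [Fact p.Prime] :
    Submodule ℤ_[p] (Additive Γ →+ ℤ_[p]) where
  carrier := {ψ | ∀ γ ∈ R, ψ (Additive.ofMul γ) = 0}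
  zero_mem' := fun _ _ => rfl
  add_mem' := fun {a b} ha hb γ hγ => by
    rw [AddMonoidHom.add_apply, ha γ hγ, hb γ hγ, add_zero]
  smul_mem' := fun c a ha γ hγ => by
    rw [AddMonoidHom.smul_apply, ha γ hγ, smul_zero]

section Main

variable {J : Type*} [AddCommGroup J] {p : ℕ} [hp : Fact p.Prime] {Γ : Type*} [Group Γ]
  {M : Type*} [CommGroup M] {R : Set Γ} (Z : tl_Roots M p) (S : tl_CharSystem J p Γ M R)

theorem tl_exists_val (x : tm_T J p) (γ : Γ) :
    ∃ a : ℤ_[p], ∀ n, PadicInt.toZModPow n a = Z.log n (S.χ n (x.1 n) γ) :=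
  tm_exists_padic _ fun n => by
    rw [← Z.log_level (S.apply_pow_eq_one (n + 1) (tm_tor x (n + 1)) γ), ← MonoidHom.pow_apply,
      ← S.level n _ (tm_tor x (n + 1)), tm_compat]

/-- the `p`-adic coordinate of `x` at `γ` -/
def tl_val (x : tm_T J p) (γ : Γ) : ℤ_[p] := Classical.choose (tl_exists_val Z S x γ)

theorem tl_val_spec (x : tm_T J p) (γ : Γ) (n : ℕ) :
    PadicInt.toZModPow n (tl_val Z S x γ) = Z.log n (S.χ n (x.1 n) γ) :=
  Classical.choose_spec (tl_exists_val Z S x γ) n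

theorem tl_val_mul (x : tm_T J p) (γ γ' : Γ) :
    tl_val Z S x (γ * γ') = tl_val Z S x γ + tl_val Z S x γ' := by
  rw [← PadicInt.ext_of_toZModPow]
  intro n
  rw [map_add, tl_val_spec, tl_val_spec, tl_val_spec, map_mul,
    Z.log_mul (S.apply_pow_eq_one n (tm_tor x n) γ) (S.apply_pow_eq_one n (tm_tor x n) γ')]

theorem tl_val_one (x : tm_T J p) : tl_val Z S x 1 = 0 := by
  have h := tl_val_mul Z S x 1 1
  rw [mul_one] at h
  exact left_eq_add.mp h

theorem tl_val_add (x y : tm_T J p) (γ : Γ) :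
    tl_val Z S (x + y) γ = tl_val Z S x γ + tl_val Z S y γ := by
  rw [← PadicInt.ext_of_toZModPow]
  intro n
  rw [map_add, tl_val_spec, tl_val_spec, tl_val_spec, tm_add_apply,
    S.map_add n _ _ (tm_tor x n) (tm_tor y n), MonoidHom.mul_apply,
    Z.log_mul (S.apply_pow_eq_one n (tm_tor x n) γ) (S.apply_pow_eq_one n (tm_tor y n) γ)]

theorem tl_val_smul (a : ℤ_[p]) (x : tm_T J p) (γ : Γ) :
    tl_val Z S (a • x) γ = a * tl_val Z S x γ := by
  rw [← PadicInt.ext_of_toZModPow]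
  intro n
  rw [map_mul, tl_val_spec, tl_val_spec, tm_smul_apply, S.map_nsmul n (tm_tor x n),
    MonoidHom.pow_apply, Z.log_pow (S.apply_pow_eq_one n (tm_tor x n) γ), ZMod.natCast_zmod_val]

theorem tl_val_rel (x : tm_T J p) {γ : Γ} (hγ : γ ∈ R) : tl_val Z S x γ = 0 := by
  rw [← PadicInt.ext_of_toZModPow]
  intro n
  rw [map_zero, tl_val_spec, S.rel n _ (tm_tor x n) γ hγ, Z.log_one]

/-- the comparison map -/
def tl_phi : tm_T J p →ₗ[ℤ_[p]] tl_Hom Γ R p where
  toFun x := ⟨{ toFun := fun g => tl_val Z S x (Additive.toMul g)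
                map_zero' := tl_val_one Z S x
                map_add' := fun _ _ => tl_val_mul Z S x _ _ },
    fun _ hγ => tl_val_rel Z S x hγ⟩
  map_add' x y := Subtype.ext (AddMonoidHom.ext fun _ => tl_val_add Z S x y _)
  map_smul' a x := Subtype.ext (AddMonoidHom.ext fun _ => tl_val_smul Z S a x _)

theorem tl_phi_apply (x : tm_T J p) (γ : Γ) :
    (tl_phi Z S x : Additive Γ →+ ℤ_[p]) (Additive.ofMul γ) = tl_val Z S x γ := rfl

theorem tl_phi_injective : Function.Injective (tl_phi Z S) := by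
  rw [injective_iff_map_eq_zero]
  intro x hx
  refine tm_ext fun n => ?_
  refine S.inj n _ (tm_tor x n) (MonoidHom.ext fun γ => ?_)
  have h1 : tl_val Z S x γ = 0 := by
    rw [← tl_phi_apply, hx]; rfl
  have h2 := tl_val_spec Z S x γ n
  rw [h1, map_zero] at h2
  rw [MonoidHom.one_apply]
  exact Z.eq_one_of_log_eq_zero (S.apply_pow_eq_one n (tm_tor x n) γ) h2.symm

/-- the character of level `n` attached to `ψ` -/
def tl_char (ψ : Additive Γ →+ ℤ_[p]) (n : ℕ) : Γ →* M where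
  toFun γ := Z.ζ n ^ (PadicInt.toZModPow n (ψ (Additive.ofMul γ))).val
  map_one' := by
    show Z.ζ n ^ (PadicInt.toZModPow n (ψ 0)).val = 1
    rw [map_zero, map_zero, ZMod.val_zero, pow_zero]
  map_mul' γ γ' := by
    show Z.ζ n ^ (PadicInt.toZModPow n (ψ (Additive.ofMul γ + Additive.ofMul γ'))).val = _
    rw [← pow_add, Z.pow_eq_pow_iff, map_add, map_add, Nat.cast_add, ZMod.natCast_zmod_val,
      ZMod.natCast_zmod_val, ZMod.natCast_zmod_val]

theorem tl_char_apply (ψ : Additive Γ →+ ℤ_[p]) (n : ℕ) (γ : Γ) :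
    tl_char Z ψ n γ = Z.ζ n ^ (PadicInt.toZModPow n (ψ (Additive.ofMul γ))).val := rfl

theorem tl_char_pow (ψ : Additive Γ →+ ℤ_[p]) (n : ℕ) : tl_char Z ψ n ^ (p ^ n) = 1 :=
  MonoidHom.ext fun γ => by
    rw [MonoidHom.pow_apply, tl_char_apply, Z.zeta_pow_torsion, MonoidHom.one_apply]

theorem tl_char_level (ψ : Additive Γ →+ ℤ_[p]) (n : ℕ) :
    tl_char Z ψ (n + 1) ^ p = tl_char Z ψ n :=
  MonoidHom.ext fun γ => by
    rw [MonoidHom.pow_apply, tl_char_apply, tl_char_apply, ← pow_mul, mul_comm, pow_mul, Z.compat,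
      Z.pow_eq_pow_iff, ZMod.natCast_zmod_val, ZMod.natCast_val,
      PadicInt.cast_toZModPow n (n + 1) (Nat.le_succ n)]

theorem tl_phi_surjective : Function.Surjective (tl_phi Z S) := by
  intro ψ
  have hx : ∀ n, ∃ x : J, p ^ n • x = 0 ∧ S.χ n x = tl_char Z ψ.1 n := fun n =>
    S.surj n _ (tl_char_pow Z ψ.1 n) (fun γ hγ => by
      rw [tl_char_apply, ψ.2 γ hγ, map_zero, ZMod.val_zero, pow_zero])
  choose x hx using hx
  have hmem : x ∈ tm_T J p := by
    intro n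
    refine ⟨(hx n).1, ?_⟩
    refine S.eq_of_eq n (by rw [← mul_nsmul', ← pow_succ]; exact (hx (n + 1)).1) (hx n).1 ?_
    rw [S.level n _ (hx (n + 1)).1, (hx (n + 1)).2, (hx n).2, tl_char_level]
  refine ⟨⟨x, hmem⟩, Subtype.ext (AddMonoidHom.ext fun g => ?_)⟩
  show tl_val Z S ⟨x, hmem⟩ (Additive.toMul g) = ψ.1 g
  rw [← PadicInt.ext_of_toZModPow]
  intro n
  rw [tl_val_spec]
  show Z.log n (S.χ n (x n) (Additive.toMul g)) = _
  rw [(hx n).2, tl_char_apply, Z.log_zeta_pow, ZMod.natCast_zmod_val]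
  rfl

/-- **The Tate module is the module of `ℤ_p`-valued homomorphisms killing the relators.** -/
def tl_equiv : tm_T J p ≃ₗ[ℤ_[p]] tl_Hom Γ R p :=
  LinearEquiv.ofBijective (tl_phi Z S) ⟨tl_phi_injective Z S, tl_phi_surjective Z S⟩

theorem tl_equiv_apply (x : tm_T J p) (γ : Γ) :
    (tl_equiv Z S x : Additive Γ →+ ℤ_[p]) (Additive.ofMul γ) = tl_val Z S x γ := rfl

/-- the characterisation of `tl_equiv` -/
theorem tl_equiv_spec (x : tm_T J p) (γ : Γ) (n : ℕ) :
    S.χ n (x.1 n) γ =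
      Z.ζ n ^ (PadicInt.toZModPow n
        ((tl_equiv Z S x : Additive Γ →+ ℤ_[p]) (Additive.ofMul γ))).val := by
  rw [tl_equiv_apply, tl_val_spec, Z.pow_log (S.apply_pow_eq_one n (tm_tor x n) γ)]

/-- equivariance: an endomorphism `f` of `J` acting on the characters through finitely many maps
`c i : Γ → Γ` acts on the homomorphisms by `ψ ↦ (γ ↦ ∑ i, ψ (c i γ))`. -/
theorem tl_equiv_map (f : AddMonoid.End J) {ι : Type*} [Fintype ι] (c : ι → Γ → Γ)
    (hf : ∀ n x, p ^ n • x = 0 → ∀ γ, S.χ n (f x) γ = ∏ i, S.χ n x (c i γ))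
    (x : tm_T J p) (γ : Γ) :
    (tl_equiv Z S (tm_map J p f x) : Additive Γ →+ ℤ_[p]) (Additive.ofMul γ) =
      ∑ i, (tl_equiv Z S x : Additive Γ →+ ℤ_[p]) (Additive.ofMul (c i γ)) := by
  classical
  simp only [tl_equiv_apply]
  rw [← PadicInt.ext_of_toZModPow]
  intro n
  rw [tl_val_spec, tm_map_apply, hf n _ (tm_tor x n) γ, map_sum]
  have hlog : ∀ s : Finset ι, Z.log n (∏ i ∈ s, S.χ n (x.1 n) (c i γ)) =
      ∑ i ∈ s, Z.log n (S.χ n (x.1 n) (c i γ)) ∧
      (∏ i ∈ s, S.χ n (x.1 n) (c i γ)) ^ (p ^ n) = 1 := by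
    intro s
    induction s using Finset.induction_on with
    | empty => simp [Z.log_one]
    | insert a s ha ih =>
      rw [Finset.prod_insert ha, Finset.sum_insert ha,
        Z.log_mul (S.apply_pow_eq_one n (tm_tor x n) _) ih.2, ih.1, mul_pow, ih.2,
        S.apply_pow_eq_one n (tm_tor x n), one_mul]
      exact ⟨rfl, rfl⟩
  rw [(hlog Finset.univ).1]
  exact Finset.sum_congr rfl fun i _ => (tl_val_spec Z S x (c i γ) n).symm

end Main

/-! ### the complex roots of unity -/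

/-- `exp (2 π i / p ^ n)` as a unit of `ℂ` -/
def tl_zetaC (p n : ℕ) : ℂˣ :=
  Units.mk0 (Complex.exp (2 * Real.pi * Complex.I / ((p ^ n : ℕ) : ℂ))) (Complex.exp_ne_zero _)

theorem tl_zetaC_isPrimitiveRoot (p : ℕ) [hp : Fact p.Prime] (n : ℕ) :
    IsPrimitiveRoot (tl_zetaC p n) (p ^ n) :=
  IsPrimitiveRoot.coe_units_iff.mp
    (Complex.isPrimitiveRoot_exp (p ^ n) (pow_ne_zero _ hp.out.ne_zero))

/-- the standard compatible system of `p`-power roots of unity in `ℂˣ` -/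
def tl_rootsComplex (p : ℕ) [hp : Fact p.Prime] : tl_Roots ℂˣ p where
  ζ := tl_zetaC p
  order n := (tl_zetaC_isPrimitiveRoot p n).eq_orderOf.symm
  compat n := by
    apply Units.ext
    show Complex.exp (2 * Real.pi * Complex.I / ((p ^ (n + 1) : ℕ) : ℂ)) ^ p =
      Complex.exp (2 * Real.pi * Complex.I / ((p ^ n : ℕ) : ℂ))
    rw [← Complex.exp_nat_mul]
    congr 1
    have hp0 : (p : ℂ) ≠ 0 := Nat.cast_ne_zero.mpr hp.out.ne_zero
    push_cast
    field_simp
    ring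
  exists_pow n z hz := by
    have h := Complex.isPrimitiveRoot_exp (p ^ n) (pow_ne_zero _ hp.out.ne_zero)
    haveI : NeZero (p ^ n) := ⟨pow_ne_zero _ hp.out.ne_zero⟩
    obtain ⟨i, -, hi⟩ := h.eq_pow_of_pow_eq_one (ξ := (z : ℂ))
      (by rw [← Units.val_pow_eq_pow_val, hz, Units.val_one])
    exact ⟨i, Units.ext (by rw [Units.val_pow_eq_pow_val]; exact hi)⟩

end Fermat.Agent.JT3
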